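/-
S18lib / Norm / Base  (helper8)

The `hbase` input of `Norm/Main.mapDomain_le_count` and `Norm/OfGauss.RedExt.ofGaussDatum` for the
base extension `RatFunc L ⊆ F`, from a frame family `(x, θ)` of a Gauss datum:

* `redPoly p hp : k[X]` : coefficientwise reduction of `p ∈ L[X]` with coefficients in `A`;
* `redF_aeval` : `redF (p(y)) = p̄(ȳ)` for `y ∈ O`;
* `IsFrameFamily.coeff_mem_of_aeval_mem` : `p(x) ∈ O → p ∈ A[X]`;
* `exists_ratFunc_of_frame` : the reduction of `O ∩ L(x)` lies in `k(x̄)`;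
* `exists_lifts_poly` : polynomials in `x̄` lift to integral polynomials in `x`.
-/
import Mathlib
import Fermat.Agent.S18lib.Weak.IntegralRed
import Fermat.Agent.S18lib.RRgen.Places

set_option autoImplicit false

noncomputable section

namespace Fermat.Agent.S18lib.Norm

open Polynomial AlgebraicCurve

variable {L : Type*} [Field L] {A : ValuationSubring L}
variable {F : Type*} [Field F] [Algebra L F]
variable {Fk : Type*} [Field Fk] [Algebra (IsLocalRing.ResidueField A) Fk]

local notation "k" => IsLocalRing.ResidueField A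

/-- coefficientwise reduction of a polynomial with coefficients in `A` -/
def redPoly (p : L[X]) (hp : ∀ a, p.coeff a ∈ A) : (IsLocalRing.ResidueField A)[X] :=
  ∑ i ∈ Finset.range (p.natDegree + 1),
    monomial i (IsLocalRing.residue A ⟨p.coeff i, hp i⟩)

omit [Field Fk] [Algebra (IsLocalRing.ResidueField A) Fk] [Field F] [Algebra L F] in
theorem coeff_redPoly (p : L[X]) (hp : ∀ a, p.coeff a ∈ A) (i : ℕ) :
    (redPoly p hp).coeff i = IsLocalRing.residue A ⟨p.coeff i, hp i⟩ := by
  classical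
  rw [redPoly, finsetSum_coeff]
  simp only [coeff_monomial]
  rw [Finset.sum_ite_eq' (Finset.range (p.natDegree + 1)) i]
  split_ifs with hi
  · rfl
  · have h0 : p.coeff i = 0 :=
      coeff_eq_zero_of_natDegree_lt (by rw [Finset.mem_range] at hi; omega)
    have : (⟨p.coeff i, hp i⟩ : A) = 0 := Subtype.ext h0
    rw [this, map_zero]

/-- `redF (p(y)) = p̄(ȳ)` -/
theorem redF_aeval (G : GaussDatum A F Fk) {y : F} (hy : y ∈ G.O) (p : L[X])
    (hp : ∀ a, p.coeff a ∈ A) :
    G.redF (aeval y p) = aeval (G.redF y) (redPoly p hp) := by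
  rw [aeval_eq_sum_range, G.redF_sum, redPoly, map_sum]
  · refine Finset.sum_congr rfl fun i _ => ?_
    rw [aeval_monomial, Algebra.smul_def]
    have := G.redF_smul (⟨p.coeff i, hp i⟩ : A) (G.O.pow_mem hy i)
    rw [this, G.redF_pow hy, Algebra.smul_def]
  · intro i _
    rw [Algebra.smul_def]
    exact G.smul_mem (⟨p.coeff i, hp i⟩ : A) (G.O.pow_mem hy i)

theorem aeval_mem_of_coeff_mem (G : GaussDatum A F Fk) {y : F} (hy : y ∈ G.O) (p : L[X])
    (hp : ∀ a, p.coeff a ∈ A) : aeval y p ∈ G.O := by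
  rw [aeval_eq_sum_range]
  refine G.O.toSubring.sum_mem fun i _ => ?_
  rw [Algebra.smul_def]
  exact G.smul_mem (⟨p.coeff i, hp i⟩ : A) (G.O.pow_mem hy i)

/-- a polynomial in the frame variable lying in `O` has coefficients in `A` -/
theorem coeff_mem_of_aeval_mem {G : GaussDatum A F Fk} {y : F} {n : ℕ} {θ : Fin n → F}
    (h : WFrame.IsFrameFamily G y θ) (p : L[X]) (hp : aeval y p ∈ G.O) (a : ℕ) :
    p.coeff a ∈ A := by
  classical
  let i₀ : Fin n := ⟨0, h.n_pos⟩
  have hsum : ∑ j, aeval y ((fun j => if j = i₀ then p else 0) j) * θ j = aeval y p * θ i₀ := by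
    rw [Finset.sum_eq_single i₀]
    · simp
    · intro j _ hj; simp [hj]
    · intro hj; exact absurd (Finset.mem_univ _) hj
  have hw : ∑ j, aeval y ((fun j => if j = i₀ then p else 0) j) * θ j ∈ G.O := by
    rw [hsum]
    exact G.O.mul_mem _ _ hp (h.θ_mem i₀)
  have := h.coeff_mem_of_sum_aeval_mem _ hw i₀ a
  simpa using this

section ratfunc

variable [Algebra (RatFunc L) F] [IsScalarTower L (RatFunc L) F]
  [Algebra (RatFunc (IsLocalRing.ResidueField A)) Fk]
  [IsScalarTower (IsLocalRing.ResidueField A) (RatFunc (IsLocalRing.ResidueField A)) Fk]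

omit [Algebra (IsLocalRing.ResidueField A) Fk] [Algebra (RatFunc (IsLocalRing.ResidueField A)) Fk]
  [IsScalarTower (IsLocalRing.ResidueField A) (RatFunc (IsLocalRing.ResidueField A)) Fk] in
/-- polynomials act through `aeval x` -/
theorem algebraMap_ratFunc_poly (p : L[X]) :
    algebraMap (RatFunc L) F (algebraMap L[X] (RatFunc L) p) = aeval (RRgen.xF L F) p := by
  have h : (IsScalarTower.toAlgHom L (RatFunc L) F).comp
      (IsScalarTower.toAlgHom L L[X] (RatFunc L)) = aeval (RRgen.xF L F) := by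
    apply Polynomial.algHom_ext
    simp only [AlgHom.comp_apply, IsScalarTower.coe_toAlgHom', aeval_X, RatFunc.algebraMap_X]
    rfl
  have := congrArg (fun φ : L[X] →ₐ[L] F => φ p) h
  simpa using this

/-- **The reduction of `O ∩ L(x)` lies in `k(x̄)`.** -/
theorem exists_ratFunc_of_frame (G : GaussDatum A F Fk) {n : ℕ} {θ : Fin n → F}
    (h : WFrame.IsFrameFamily G (RRgen.xF L F) θ)
    (hx : G.redF (RRgen.xF L F) = RRgen.xF (IsLocalRing.ResidueField A) Fk)
    (q : RatFunc L) (hq : algebraMap (RatFunc L) F q ∈ G.O) :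
    ∃ qb : RatFunc k, G.redF (algebraMap (RatFunc L) F q) = algebraMap (RatFunc k) Fk qb := by
  set y := RRgen.xF L F with hy
  have hyO : y ∈ G.O := h.y_mem
  have hb0 : q.denom ≠ 0 := q.denom_ne_zero
  have hfb : aeval y q.denom ≠ 0 := h.aeval_ne_zero hb0
  obtain ⟨c, hc, hcd⟩ := G.exists_const_mul_redF_ne_zero hfb
  set pa : L[X] := C c * q.num with hpa
  set pb : L[X] := C c * q.denom with hpb
  have hdb : aeval y pb = algebraMap L F c * aeval y q.denom := by
    rw [hpb, map_mul, aeval_C]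
  have hdO : aeval y pb ∈ G.O := by
    rw [hdb]; exact G.mem_of_redF_ne_zero hcd
  have hqeq : algebraMap (RatFunc L) F q * aeval y pb = aeval y pa := by
    conv_lhs => rw [← RatFunc.num_div_denom q]
    rw [map_div₀, algebraMap_ratFunc_poly, algebraMap_ratFunc_poly, ← hy, hdb, hpa, map_mul,
      aeval_C]
    field_simp
  have haO : aeval y pa ∈ G.O := by
    rw [← hqeq]; exact G.O.mul_mem _ _ hq hdO
  have hpaA := coeff_mem_of_aeval_mem h pa haO
  have hpbA := coeff_mem_of_aeval_mem h pb hdO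
  have hrb : G.redF (aeval y pb) ≠ 0 := by rw [hdb]; exact hcd
  have h1 : G.redF (algebraMap (RatFunc L) F q) * G.redF (aeval y pb) = G.redF (aeval y pa) := by
    rw [← G.redF_mul hq hdO, hqeq]
  refine ⟨algebraMap k[X] (RatFunc k) (redPoly pa hpaA) /
    algebraMap k[X] (RatFunc k) (redPoly pb hpbA), ?_⟩
  rw [map_div₀, algebraMap_ratFunc_poly, algebraMap_ratFunc_poly, ← hx,
    ← redF_aeval G hyO pa hpaA, ← redF_aeval G hyO pb hpbA, ← h1]
  field_simp

omit [IsScalarTower L (RatFunc L) F]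
  [IsScalarTower (IsLocalRing.ResidueField A) (RatFunc (IsLocalRing.ResidueField A)) Fk] in
/-- polynomials in `x̄` lift to polynomials in `x` with coefficients in `A` -/
theorem exists_lifts_poly (G : GaussDatum A F Fk)
    (hx : G.redF (RRgen.xF L F) = RRgen.xF (IsLocalRing.ResidueField A) Fk) (p : k[X]) :
    ∃ P : L[X], aeval (RRgen.xF L F) P ∈ G.O ∧
      G.redF (aeval (RRgen.xF L F) P) = aeval (RRgen.xF (IsLocalRing.ResidueField A) Fk) p := by
  have hxk : RRgen.xF (IsLocalRing.ResidueField A) Fk ≠ 0 := by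
    rw [RRgen.xF, Ne, map_eq_zero_iff _ (algebraMap (RatFunc k) Fk).injective]
    exact RatFunc.X_ne_zero
  have hxO : RRgen.xF L F ∈ G.O := G.mem_of_redF_ne_zero (by rw [hx]; exact hxk)
  obtain ⟨P0, hP0⟩ := Polynomial.map_surjective (IsLocalRing.residue A)
    IsLocalRing.residue_surjective p
  have hcoeff : ∀ a, (P0.map A.subtype).coeff a ∈ A := fun a => by
    rw [coeff_map]; exact (P0.coeff a).2
  refine ⟨P0.map A.subtype, aeval_mem_of_coeff_mem G hxO _ hcoeff, ?_⟩
  rw [redF_aeval G hxO _ hcoeff, hx]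
  congr 1
  ext i
  rw [coeff_redPoly, ← hP0, coeff_map (IsLocalRing.residue A)]
  congr 1
  apply Subtype.ext
  show (P0.map A.subtype).coeff i = ((P0.coeff i : A) : L)
  rw [coeff_map]
  rfl

end ratfunc

end Fermat.Agent.S18lib.Norm
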