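/-
S18lib / Norm / Conservation  (helper8)

P4d of the normality package: the "conservation law" turning one element `z` of the Gauss ring
with `ord_P z ≥ d₀ P` on a fibre of `r` and `ord_Q (red z) ≤ d_Q` into the local inequality
`∑_{P ↦ Q} d₀ P ≤ d_Q`  (the hypothesis `hle` of `G.exists_genus_of_mapDomain_le`).
-/
import Mathlib
import Fermat.Agent.S18lib.Setup.DatumFibre

set_option autoImplicit false

noncomputable section

namespace Fermat.Agent.S18lib.Norm

open AlgebraicCurve

open scoped Classical in
/-- evaluation of a push-forward of an `ℕ`-valued finitely supported function -/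
theorem mapDomain_nat_apply_eq_sum {ι κ : Type*} (r : ι → κ) (E : ι →₀ ℕ) (Q : κ) :
    Finsupp.mapDomain r E Q = ∑ P ∈ E.support, (if r P = Q then E P else 0) := by
  rw [Finsupp.mapDomain, Finsupp.sum_apply, Finsupp.sum]
  refine Finset.sum_congr rfl fun P _ => ?_
  rw [Finsupp.single_apply]

variable {L : Type*} [Field L] {A : ValuationSubring L}
variable {F : Type*} [Field F] [Algebra L F]
variable {Fk : Type*} [Field Fk] [Algebra (IsLocalRing.ResidueField A) Fk]
variable [HasPrincipalDivisors L F] [HasPrincipalDivisors (IsLocalRing.ResidueField A) Fk]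

local notation "k" => IsLocalRing.ResidueField A

/-- **Conservation law.** -/
theorem mapDomain_le_of_conservation (D : RedDatum A F Fk) (d0 : Place L F →₀ ℕ)
    (Q : Place k Fk) (dQ : ℕ) {z : F} (hz : D.redF z ≠ 0)
    (h1 : ∀ P, D.r P = Q → (d0 P : ℤ) ≤ P.ord z)
    (h2 : Q.ord (D.redF z) ≤ dQ) :
    Finsupp.mapDomain D.r d0 Q ≤ dQ := by
  classical
  have hz0 : z ≠ 0 := by
    rintro rfl
    exact hz D.redF_zero
  have hmap := D.mapDomain_divOf hz
  have hQ : Finsupp.mapDomain D.r (divOf (K := L) z) Q = Q.ord (D.redF z) := by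
    rw [hmap, divOf_apply hz]
  rw [mapDomain_apply_eq_sum] at hQ
  have key : ((Finsupp.mapDomain D.r d0 Q : ℕ) : ℤ) ≤ Q.ord (D.redF z) := by
    rw [mapDomain_nat_apply_eq_sum, ← hQ]
    push_cast
    rw [← Finset.sum_filter, ← Finset.sum_filter]
    have hsub : d0.support.filter (fun P => D.r P = Q) ⊆
        (divOf (K := L) z).support.filter (fun P => D.r P = Q) := by
      intro P hP
      rw [Finset.mem_filter, Finsupp.mem_support_iff] at hP ⊢
      refine ⟨?_, hP.2⟩
      rw [divOf_apply hz0]
      have h3 := h1 P hP.2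
      have h4 : 0 < d0 P := Nat.pos_of_ne_zero hP.1
      have h5 : (0 : ℤ) < (d0 P : ℤ) := by exact_mod_cast h4
      intro h0
      rw [h0] at h3
      omega
    calc ∑ P ∈ d0.support.filter (fun P => D.r P = Q), ((d0 P : ℕ) : ℤ)
        ≤ ∑ P ∈ d0.support.filter (fun P => D.r P = Q), (divOf (K := L) z) P := by
          refine Finset.sum_le_sum fun P hP => ?_
          rw [Finset.mem_filter] at hP
          rw [divOf_apply hz0]
          exact h1 P hP.2
      _ ≤ ∑ P ∈ (divOf (K := L) z).support.filter (fun P => D.r P = Q), (divOf (K := L) z) P := by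
          refine Finset.sum_le_sum_of_subset_of_nonneg hsub fun P hP _ => ?_
          rw [Finset.mem_filter] at hP
          rw [divOf_apply hz0]
          exact le_trans (by positivity) (h1 P hP.2)
  have : ((Finsupp.mapDomain D.r d0 Q : ℕ) : ℤ) ≤ (dQ : ℤ) := key.trans h2
  exact_mod_cast this

end Fermat.Agent.S18lib.Norm
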