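/-
S18lib / Norm / LocalGen  (helper2)   -- package P4a of the normality plan (helper8, msg 662)

Local monogenic generators of a Dedekind `k[X]`-algebra at `X = c` (Mathlib only):
(a) `exists_local_generator`: there is `y : B` and `s ∈ k[X]`, `s(c) ≠ 0`, with `s • B ⊆ k[X][y]`;
(b) `exists_smul_mem_adjoin_mul`: passing from `y` to `t • y`;
(c) `pow_dvd_differentIdeal_of_local_generator`: at primes not containing `s`, the different is
    computed by `f'(y)` (`conductor_mul_differentIdeal`).
-/
import Mathlib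

set_option autoImplicit false

noncomputable section

namespace Fermat.Agent.S18lib.Norm

open Polynomial

/-! ### (c) the different at primes prime to the conductor -/

section Different

variable (A K L : Type*) {B : Type*} [CommRing A] [Field K] [CommRing B] [Field L]
  [Algebra A K] [Algebra B L] [Algebra A B] [Algebra K L] [Algebra A L]
  [IsScalarTower A K L] [IsScalarTower A B L] [IsDomain A] [IsFractionRing A K]
  [FiniteDimensional K L] [Algebra.IsSeparable K L] [IsIntegralClosure B A L]
  [IsIntegrallyClosed A] [IsDedekindDomain B] [Module.IsTorsionFree A B]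

/-- if `s • B ⊆ A[y]` and `s ∉ Q`, then `Q^m ∣ (f'(y))` implies `Q^m ∣ Diff(B/A)` -/
theorem pow_dvd_differentIdeal_of_local_generator (y : B)
    (hy : Algebra.adjoin K {algebraMap B L y} = ⊤) (s : A)
    (hs : ∀ b : B, algebraMap A B s * b ∈ Algebra.adjoin A ({y} : Set B))
    (Q : Ideal B) [hQ : Q.IsPrime] (hsQ : algebraMap A B s ∉ Q) (m : ℕ)
    (h : Q ^ m ∣ Ideal.span {aeval y (derivative (minpoly A y))}) :
    Q ^ m ∣ differentIdeal A B := by
  have hcond : algebraMap A B s ∈ conductor A y := mem_conductor_iff.2 hs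
  rw [← conductor_mul_differentIdeal A K L y hy] at h
  by_cases hQ0 : Q = ⊥
  · -- degenerate case
    rcases Nat.eq_zero_or_pos m with rfl | hm
    · rw [pow_zero]; exact one_dvd _
    · exfalso
      apply hsQ
      rw [hQ0] at h ⊢
      -- `⊥ ^ m = ⊥` divides the product, so the product is `⊥`; the conductor is not
      have h0 : conductor A y * differentIdeal A B = 0 := by
        have hbot : (⊥ : Ideal B) ^ m = 0 := by
          rw [← Ideal.zero_eq_bot]; exact zero_pow (by omega)
        rw [hbot, zero_dvd_iff] at h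
        exact h
      have hne : differentIdeal A B ≠ ⊥ := by
        intro hd
        -- `f'(y)` would be zero, contradicting separability
        have h1 : aeval y (derivative (minpoly A y)) ∈ differentIdeal A B :=
          aeval_derivative_mem_differentIdeal A K L y hy
        rw [hd, Ideal.mem_bot] at h1
        have hAy : IsIntegral A y := IsIntegralClosure.isIntegral A L y
        have hne₁ : aeval (algebraMap B L y) (derivative (minpoly K (algebraMap B L y))) ≠ 0 :=
          (Algebra.IsSeparable.isSeparable K _).aeval_derivative_ne_zero (minpoly.aeval _ _)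
        rw [minpoly.isIntegrallyClosed_eq_field_fractions K L hAy, derivative_map,
          aeval_map_algebraMap, aeval_algebraMap_apply, h1, map_zero] at hne₁
        exact hne₁ rfl
      have hc0 : conductor A y = ⊥ := by
        rcases mul_eq_zero.1 h0 with h1 | h1
        · exact h1
        · exact absurd h1 hne
      rw [hc0] at hcond
      exact hcond
  · have hQp : Prime Q := Ideal.prime_of_isPrime hQ0 hQ
    refine hQp.pow_dvd_of_dvd_mul_left m ?_ h
    rw [Ideal.dvd_iff_le]
    intro hle
    exact hsQ (hle hcond)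

end Different

/-! ### (b) change of generator `y ↦ t • y` -/

section ChangeGen

variable {R B : Type*} [CommRing R] [CommRing B] [Algebra R B]

theorem aeval_mem_adjoin (y : B) (p : R[X]) : aeval y p ∈ Algebra.adjoin R ({y} : Set B) := by
  rw [Algebra.adjoin_singleton_eq_range_aeval]
  exact ⟨p, rfl⟩

/-- `t^m • p(y) ∈ R[t y]` when `deg p ≤ m` -/
theorem pow_smul_aeval_mem_adjoin (y : B) (t : R) (p : R[X]) {m : ℕ} (hm : p.natDegree ≤ m) :
    algebraMap R B (t ^ m) * aeval y p ∈ Algebra.adjoin R ({algebraMap R B t * y} : Set B) := by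
  rw [aeval_eq_sum_range, Finset.mul_sum]
  refine Subalgebra.sum_mem _ fun i hi => ?_
  have hi' : i ≤ m := le_trans (Nat.lt_succ_iff.1 (Finset.mem_range.1 hi)) hm
  have : algebraMap R B (t ^ m) * (p.coeff i • y ^ i)
      = algebraMap R B (p.coeff i * t ^ (m - i)) * (algebraMap R B t * y) ^ i := by
    have ht : t ^ m = t ^ (m - i) * t ^ i := by rw [← pow_add, Nat.sub_add_cancel hi']
    rw [Algebra.smul_def, mul_pow, ← map_pow, ht]
    simp only [map_mul]
    ring
  rw [this]
  exact Subalgebra.mul_mem _ (Subalgebra.algebraMap_mem _ _)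
    (Subalgebra.pow_mem _ (Algebra.self_mem_adjoin_singleton R _) i)

theorem exists_smul_mem_adjoin_mul [Module.Finite R B] (y : B) (s t : R)
    (hs : ∀ b : B, algebraMap R B s * b ∈ Algebra.adjoin R ({y} : Set B)) :
    ∃ m : ℕ, ∀ b : B, algebraMap R B (s * t ^ m) * b ∈
      Algebra.adjoin R ({algebraMap R B t * y} : Set B) := by
  classical
  obtain ⟨S, hS⟩ := (Module.Finite.fg_top : (⊤ : Submodule R B).FG)
  have hp : ∀ b : B, ∃ p : R[X], aeval y p = algebraMap R B s * b := by
    intro b
    have := hs b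
    rw [Algebra.adjoin_singleton_eq_range_aeval] at this
    exact this
  choose p hp using hp
  refine ⟨S.sup fun b => (p b).natDegree, fun b => ?_⟩
  have hb : b ∈ Submodule.span R (S : Set B) := by rw [hS]; exact Submodule.mem_top
  induction hb using Submodule.span_induction with
  | mem b hbS =>
    have h1 := pow_smul_aeval_mem_adjoin y t (p b)
      (Finset.le_sup (f := fun b => (p b).natDegree) hbS)
    rw [hp b, ← mul_assoc, ← map_mul, mul_comm (t ^ _) s] at h1
    exact h1
  | zero => rw [mul_zero]; exact Subalgebra.zero_mem _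
  | add x z _ _ hx hz => rw [mul_add]; exact Subalgebra.add_mem _ hx hz
  | smul r x _ hx =>
    rw [mul_smul_comm]
    exact Subalgebra.smul_mem _ hx r

end ChangeGen

/-! ### (a) existence of a local generator -/

section LocalGen

open UniqueFactorizationMonoid

section

variable {B : Type*} [CommRing B] [IsDedekindDomain B]

/-- powers of a uniformizer have exact order -/
theorem pow_notMem_pow_succ {Q : Ideal B} (hQ : Q.IsPrime) (hQ0 : Q ≠ ⊥) {π : B}
    (h1 : π ∈ Q) (h2 : π ∉ Q ^ 2) (m : ℕ) : π ^ m ∉ Q ^ (m + 1) := by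
  have hQp : Prime Q := Ideal.prime_of_isPrime hQ0 hQ
  have e1 : emultiplicity Q (Ideal.span {π}) = 1 := by
    have : emultiplicity Q (Ideal.span {π}) = ((1 : ℕ) : ℕ∞) := by
      rw [emultiplicity_eq_coe]
      refine ⟨?_, ?_⟩
      · rw [pow_one, Ideal.dvd_span_singleton]; exact h1
      · rw [Ideal.dvd_span_singleton]; exact h2
    simpa using this
  intro hmem
  have h3 : Q ^ (m + 1) ∣ Ideal.span {π} ^ m := by
    rw [Ideal.span_singleton_pow, Ideal.dvd_span_singleton]; exact hmem
  rw [pow_dvd_iff_le_emultiplicity, emultiplicity_pow hQp, e1, mul_one] at h3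
  have : ((m + 1 : ℕ) : ℕ∞) ≤ (m : ℕ∞) := h3
  rw [Nat.cast_le] at this
  omega

variable {k : Type*} [Field k] [Algebra k B]

/-- approximation by polynomials in `y` modulo powers of a prime with residue field `k` at which
`y - a` is a uniformizer -/
theorem exists_poly_sub_mem_pow {Q : Ideal B} (hQ : Q.IsPrime) (hQ0 : Q ≠ ⊥)
    (hres : Function.Surjective (algebraMap k (B ⧸ Q))) {y : B} {a : k}
    (h1 : y - algebraMap k B a ∈ Q) (h2 : y - algebraMap k B a ∉ Q ^ 2) (m : ℕ) (b : B) :
    ∃ p : k[X], b - aeval y p ∈ Q ^ m := by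
  induction m with
  | zero => exact ⟨0, by simp⟩
  | succ m ih =>
    obtain ⟨p, hp⟩ := ih
    have hπm : (y - algebraMap k B a) ^ m ∈ Q ^ m := Ideal.pow_mem_pow h1 m
    have hπm' : (y - algebraMap k B a) ^ m ∉ Q ^ (m + 1) := pow_notMem_pow_succ hQ hQ0 h1 h2 m
    obtain ⟨d, e, he, hde⟩ := Ideal.exists_mul_add_mem_pow_succ hQ0 _ _ hπm hπm' hp
    obtain ⟨δ, hδ⟩ := hres (Ideal.Quotient.mk Q d)
    have hdδ : d - algebraMap k B δ ∈ Q := by
      rw [← Ideal.Quotient.eq_zero_iff_mem, map_sub, ← hδ]
      simp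
    refine ⟨p + C δ * (X - C a) ^ m, ?_⟩
    have h3 : b - aeval y (p + C δ * (X - C a) ^ m)
        = (y - algebraMap k B a) ^ m * (d - algebraMap k B δ) + e := by
      rw [map_add, map_mul, map_pow, map_sub, aeval_X, aeval_C, aeval_C, ← sub_sub, ← hde]
      ring
    rw [h3]
    refine Ideal.add_mem _ ?_ he
    rw [pow_succ]
    exact Ideal.mul_mem_mul hπm hdδ

omit [IsDedekindDomain B] in
/-- gluing the local approximations by the Chinese remainder theorem in `k[T]` -/
theorem exists_poly_sub_mem_pow_forall (s : Finset (Ideal B)) (a : Ideal B → k)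
    (ha : Set.InjOn a (s : Set (Ideal B))) (e : Ideal B → ℕ) {y : B}
    (h1 : ∀ Q ∈ s, y - algebraMap k B (a Q) ∈ Q) (b : B)
    (hloc : ∀ Q ∈ s, ∃ p : k[X], b - aeval y p ∈ Q ^ e Q) :
    ∃ p : k[X], ∀ Q ∈ s, b - aeval y p ∈ Q ^ e Q := by
  classical
  choose! pQ hpQ using hloc
  have hprime : ∀ Q ∈ s, Prime (Ideal.span {(X - C (a Q) : k[X])}) := by
    intro Q _
    have hne : Ideal.span {(X - C (a Q) : k[X])} ≠ ⊥ := by
      rw [Ne, Ideal.span_singleton_eq_bot]; exact X_sub_C_ne_zero _
    exact Ideal.prime_of_isPrime hne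
      ((Ideal.span_singleton_prime (X_sub_C_ne_zero _)).2 (prime_X_sub_C _))
  have hcop : ∀ Q ∈ s, ∀ Q' ∈ s, Q ≠ Q' →
      Ideal.span {(X - C (a Q) : k[X])} ≠ Ideal.span {(X - C (a Q') : k[X])} := by
    intro Q hQ Q' hQ' hne heq
    apply hne
    apply ha hQ hQ'
    -- `X - a Q' ∈ span {X - a Q}` forces equal roots
    have hmem : (X - C (a Q') : k[X]) ∈ Ideal.span {(X - C (a Q) : k[X])} := by
      rw [heq]; exact Ideal.mem_span_singleton_self _
    rw [Ideal.mem_span_singleton] at hmem
    have := (dvd_iff_isRoot.1 hmem)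
    simp only [IsRoot.def, eval_sub, eval_X, eval_C] at this
    exact (sub_eq_zero.1 this)
  obtain ⟨p, hp⟩ := IsDedekindDomain.exists_forall_sub_mem_ideal
    (fun Q => Ideal.span {(X - C (a Q) : k[X])}) e hprime hcop (fun Q => pQ Q.1)
  refine ⟨p, fun Q hQ => ?_⟩
  have h2 := hp Q hQ
  rw [Ideal.span_singleton_pow, Ideal.mem_span_singleton] at h2
  obtain ⟨q, hq⟩ := h2
  have h3 : b - aeval y p = (b - aeval y (pQ Q))
      - (y - algebraMap k B (a Q)) ^ e Q * aeval y q := by
    have : aeval y p = aeval y (pQ Q) + (y - algebraMap k B (a Q)) ^ e Q * aeval y q := by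
      have := congrArg (aeval y) hq
      simp only [map_sub, map_mul, map_pow, aeval_X, aeval_C] at this
      rw [← this]; ring
    rw [this]; ring
  rw [h3]
  exact Ideal.sub_mem _ (hpQ Q hQ) (Ideal.mul_mem_right _ _ (Ideal.pow_mem_pow (h1 Q hQ) _))

end

section

variable {k : Type*} [Field k] {B : Type*} [CommRing B] [Algebra k B]
  [Algebra k[X] B] [IsScalarTower k k[X] B]

/-- `k`-polynomials in `y` lie in `k[X][y]` -/
theorem aeval_mem_adjoin_poly (y : B) (p : k[X]) :
    aeval y p ∈ Algebra.adjoin k[X] ({y} : Set B) := by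
  rw [aeval_eq_sum_range]
  refine Subalgebra.sum_mem _ fun i _ => ?_
  rw [Algebra.smul_def, IsScalarTower.algebraMap_apply k k[X] B]
  exact Subalgebra.mul_mem _ (Subalgebra.algebraMap_mem _ _)
    (Subalgebra.pow_mem _ (Algebra.self_mem_adjoin_singleton _ _) i)

end

variable {k : Type*} [Field k] [Infinite k] {B : Type*} [CommRing B] [IsDedekindDomain B]
  [Algebra k[X] B] [Algebra k B] [IsScalarTower k k[X] B] [Module.Finite k[X] B]
  [Module.IsTorsionFree k[X] B]

/-- **local monogenic generator at `X = c`**: there are `y : B` and `s ∈ k[X]` with `s(c) ≠ 0` and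
`s • B ⊆ k[X][y]` -/
theorem exists_local_generator
    (hres : ∀ Q : Ideal B, Q.IsMaximal → Function.Surjective (algebraMap k (B ⧸ Q))) (c : k) :
    ∃ y : B, ∃ s : k[X], s.eval c ≠ 0 ∧
      ∀ b : B, algebraMap k[X] B s * b ∈ Algebra.adjoin k[X] ({y} : Set B) := by
  classical
  set ξ : B := algebraMap k[X] B (X - C c) with hξ
  have hξ0 : ξ ≠ 0 := by
    rw [hξ, Ne, map_eq_zero_iff _ (FaithfulSMul.algebraMap_injective k[X] B)]
    exact X_sub_C_ne_zero c
  set I : Ideal B := Ideal.span {ξ} with hI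
  have hI0 : I ≠ ⊥ := by
    rw [hI, Ne, Ideal.span_singleton_eq_bot]; exact hξ0
  set S : Finset (Ideal B) := (normalizedFactors I).toFinset with hS
  have hSprime : ∀ Q ∈ S, Prime Q := fun Q hQ =>
    prime_of_normalized_factor Q (Multiset.mem_toFinset.1 hQ)
  have hSisPrime : ∀ Q ∈ S, Q.IsPrime := fun Q hQ => Ideal.isPrime_of_prime (hSprime Q hQ)
  have hSne : ∀ Q ∈ S, Q ≠ ⊥ := fun Q hQ => (hSprime Q hQ).ne_zero
  have hSmax : ∀ Q ∈ S, Q.IsMaximal := fun Q hQ => (hSisPrime Q hQ).isMaximal (hSne Q hQ)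
  -- distinct constants
  let a : Ideal B → k := fun Q =>
    if h : Q ∈ S then Infinite.natEmbedding k ((S.equivFin ⟨Q, h⟩ : Fin S.card) : ℕ) else 0
  have ha : Set.InjOn a (S : Set (Ideal B)) := by
    intro Q hQ Q' hQ' h
    have hQ1 : Q ∈ S := hQ
    have hQ2 : Q' ∈ S := hQ'
    simp only [a, dif_pos hQ1, dif_pos hQ2] at h
    have h1 := (Infinite.natEmbedding k).injective h
    have h2 := S.equivFin.injective (Fin.ext h1)
    exact congrArg Subtype.val h2
  -- uniformizers
  have hπ : ∀ Q ∈ S, ∃ π ∈ Q, π ∉ Q ^ 2 := fun Q hQ => by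
    obtain ⟨x, hx, hx'⟩ := Ideal.exists_mem_pow_notMem_pow_succ Q (hSne Q hQ)
      (hSisPrime Q hQ).ne_top 1
    exact ⟨x, by simpa using hx, hx'⟩
  choose! π hπ1 hπ2 using hπ
  -- CRT
  obtain ⟨y, hy⟩ := IsDedekindDomain.exists_forall_sub_mem_ideal (s := S) (fun Q => Q)
    (fun _ => 2) hSprime (fun Q _ Q' _ h => h) (fun Q => algebraMap k B (a Q.1) + π Q.1)
  have hy1 : ∀ Q ∈ S, y - algebraMap k B (a Q) ∈ Q := by
    intro Q hQ
    have h1 := hy Q hQ
    have h2 : y - algebraMap k B (a Q) = (y - (algebraMap k B (a Q) + π Q)) + π Q := by ring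
    rw [h2]
    exact Ideal.add_mem _ (Ideal.pow_le_self (by norm_num) h1) (hπ1 Q hQ)
  have hy2 : ∀ Q ∈ S, y - algebraMap k B (a Q) ∉ Q ^ 2 := by
    intro Q hQ hmem
    have h1 := hy Q hQ
    apply hπ2 Q hQ
    have h2 : π Q = (y - algebraMap k B (a Q)) - (y - (algebraMap k B (a Q) + π Q)) := by ring
    rw [h2]
    exact Ideal.sub_mem _ hmem h1
  -- approximation modulo `I`
  set e : Ideal B → ℕ := fun Q => (normalizedFactors I).count Q with he
  have hprod : I = ∏ Q ∈ S, Q ^ e Q := by
    have := prod_normalizedFactors_eq hI0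
    rw [normalize_eq, Finset.prod_multiset_count] at this
    exact this.symm
  have happrox : ∀ b : B, ∃ p : k[X], b - aeval y p ∈ I := by
    intro b
    obtain ⟨p, hp⟩ := exists_poly_sub_mem_pow_forall S a ha e hy1 b (fun Q hQ =>
      exists_poly_sub_mem_pow (hSisPrime Q hQ) (hSne Q hQ) (hres Q (hSmax Q hQ))
        (hy1 Q hQ) (hy2 Q hQ) (e Q) b)
    refine ⟨p, ?_⟩
    rw [hprod, ← IsDedekindDomain.inf_pow_eq_prod_of_prime S (fun Q => Q) e hSprime
      (fun Q _ Q' _ h => h), Submodule.mem_finsetInf]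
    exact hp
  -- Nakayama on `B / k[X][y]`
  set Csub : Submodule k[X] B := Subalgebra.toSubmodule (Algebra.adjoin k[X] ({y} : Set B))
    with hC
  obtain ⟨r, hr1, hr2⟩ := Submodule.exists_sub_one_mem_and_smul_eq_zero_of_fg_of_le_smul
    (Ideal.span {(X - C c : k[X])}) (⊤ : Submodule k[X] (B ⧸ Csub)) Module.Finite.fg_top (by
      intro m _
      obtain ⟨b, rfl⟩ := Submodule.Quotient.mk_surjective Csub m
      obtain ⟨p, hp⟩ := happrox b
      obtain ⟨b', hb'⟩ := Ideal.mem_span_singleton'.1 hp
      have h1 : (Submodule.Quotient.mk b : B ⧸ Csub)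
          = (X - C c : k[X]) • Submodule.Quotient.mk b' := by
        rw [← Submodule.Quotient.mk_smul, eq_comm, ← sub_eq_zero, ← Submodule.Quotient.mk_sub,
          Submodule.Quotient.mk_eq_zero]
        have : (X - C c : k[X]) • b' - b = -(aeval y p) := by
          rw [Algebra.smul_def, mul_comm, hb']; ring
        rw [this]
        exact Submodule.neg_mem _ (aeval_mem_adjoin_poly y p)
      rw [h1]
      exact Submodule.smul_mem_smul (Ideal.mem_span_singleton_self _) Submodule.mem_top)
  refine ⟨y, r, ?_, fun b => ?_⟩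
  · obtain ⟨q, hq⟩ := Ideal.mem_span_singleton.1 hr1
    have := congrArg (eval c) hq
    simp only [eval_sub, eval_one, eval_mul, eval_X, eval_C, sub_self, zero_mul] at this
    rw [sub_eq_zero.1 this]
    exact one_ne_zero
  · have h1 := hr2 (Submodule.Quotient.mk b) Submodule.mem_top
    rw [← Submodule.Quotient.mk_smul, Submodule.Quotient.mk_eq_zero, Algebra.smul_def] at h1
    exact h1

end LocalGen

end Fermat.Agent.S18lib.Norm
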