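/-
S18lib / Norm / CharpolyRed  (helper8)

P1 of the normality package: reduction of multiplication matrices (hence of traces, norms and
characteristic polynomials) along a valuation ring, for a finite extension `F / F₀` whose degree
is preserved by the reduction.

Setting: `O` a valuation subring of `F`, `red : O →+* Fk` surjective with kernel the non-units,
`O₀ := O ∩ F₀`, `red₀ : O₀ →+* Fk₀` compatible with `red`, `[F : F₀] = [Fk : Fk₀] < ∞`.
Then a lift `ω` to `O` of any `Fk₀`-basis `ωk` of `Fk` is an `F₀`-basis of `F`, the coordinates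
of every `x ∈ O` lie in `O₀` and reduce to the coordinates of `red x`.
Mathlib only.
-/
import Mathlib

set_option autoImplicit false

noncomputable section

namespace Fermat.Agent.S18lib.Norm

open Module

/-- The data for reducing an extension `F / F₀` to `Fk / Fk₀` along a valuation ring. -/
structure RedExt (F₀ F Fk₀ Fk : Type*) [Field F₀] [Field F] [Field Fk₀] [Field Fk]
    [Algebra F₀ F] [Algebra Fk₀ Fk] where
  /-- the valuation ring upstairs -/
  O : ValuationSubring F
  /-- the reduction map upstairs -/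
  red : O →+* Fk
  red_surjective : Function.Surjective red
  /-- the kernel of the reduction is the set of non-units -/
  red_eq_zero_iff : ∀ x : O, red x = 0 ↔ ¬ IsUnit x
  /-- the reduction map downstairs, on `O₀ = O ∩ F₀` -/
  red₀ : (O.comap (algebraMap F₀ F)) →+* Fk₀
  red_algebraMap : ∀ x : O.comap (algebraMap F₀ F),
    red ⟨algebraMap F₀ F (x : F₀), x.2⟩ = algebraMap Fk₀ Fk (red₀ x)
  finrank_eq : finrank F₀ F = finrank Fk₀ Fk

theorem nonempty_fin_of_basis {K V : Type*} [Field K] [AddCommGroup V] [Module K V] [Nontrivial V]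
    {n : ℕ} (b : Basis (Fin n) K V) : Nonempty (Fin n) := by
  have : Module.Finite K V := Module.Finite.of_basis b
  have h1 : 0 < finrank K V := finrank_pos
  rw [finrank_eq_card_basis b, Fintype.card_fin] at h1
  exact ⟨⟨0, h1⟩⟩

namespace RedExt

variable {F₀ F Fk₀ Fk : Type*} [Field F₀] [Field F] [Field Fk₀] [Field Fk]
  [Algebra F₀ F] [Algebra Fk₀ Fk] (S : RedExt F₀ F Fk₀ Fk)

/-- the valuation ring downstairs -/
abbrev O₀ : ValuationSubring F₀ := S.O.comap (algebraMap F₀ F)

/-- the inclusion `O₀ → O` -/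
def incl : S.O₀ →+* S.O where
  toFun x := ⟨algebraMap F₀ F (x : F₀), x.2⟩
  map_one' := by ext; simp
  map_mul' x y := by ext; simp
  map_zero' := by ext; simp
  map_add' x y := by ext; simp

@[simp] theorem coe_incl (x : S.O₀) : ((S.incl x : S.O) : F) = algebraMap F₀ F (x : F₀) := rfl

theorem red_incl (x : S.O₀) : S.red (S.incl x) = algebraMap Fk₀ Fk (S.red₀ x) :=
  S.red_algebraMap x

/-- among finitely many elements of `F₀`, not all zero, one has maximal valuation -/
theorem exists_max {n : ℕ} (f : Fin n → F₀) (hf : f ≠ 0) :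
    ∃ i₀, f i₀ ≠ 0 ∧ ∀ i, f i / f i₀ ∈ S.O₀ := by
  have hne : ∃ j, f j ≠ 0 := by
    by_contra h
    push Not at h
    exact hf (funext h)
  obtain ⟨j, hj⟩ := hne
  have hnonempty : (Finset.univ : Finset (Fin n)).Nonempty := ⟨j, Finset.mem_univ _⟩
  obtain ⟨i₀, -, hmax⟩ := Finset.exists_max_image Finset.univ
    (fun i => S.O₀.valuation (f i)) hnonempty
  have hi₀ : f i₀ ≠ 0 := by
    intro h0
    have h1 := hmax j (Finset.mem_univ _)
    simp only [h0, map_zero] at h1
    exact hj ((map_eq_zero _).mp (le_antisymm h1 zero_le))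
  refine ⟨i₀, hi₀, fun i => ?_⟩
  rw [← ValuationSubring.valuation_le_one_iff, map_div₀]
  have hpos : 0 < S.O₀.valuation (f i₀) := by
    rw [zero_lt_iff]; exact (map_ne_zero _).mpr hi₀
  exact (div_le_one₀ hpos).mpr (hmax i (Finset.mem_univ _))

variable {n : ℕ} (ωk : Basis (Fin n) Fk₀ Fk) (w : Fin n → S.O)

/-- the orthonormality lemma: an `O₀`-combination of lifts of a basis whose reduction vanishes
has all coefficients in the kernel of `red₀`. -/
theorem red₀_eq_zero_of_sum (hw : ∀ i, S.red (w i) = ωk i) (g : Fin n → S.O₀)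
    (h : S.red (∑ i, S.incl (g i) * w i) = 0) : ∀ i, S.red₀ (g i) = 0 := by
  rw [map_sum] at h
  simp only [map_mul, S.red_incl, hw, ← Algebra.smul_def] at h
  exact Fintype.linearIndependent_iff.mp ωk.linearIndependent _ h

include ωk in
theorem linearIndependent_lift (hw : ∀ i, S.red (w i) = ωk i) :
    LinearIndependent F₀ (fun i => ((w i : S.O) : F)) := by
  rw [Fintype.linearIndependent_iff]
  intro f hf
  by_contra hcon
  push Not at hcon
  have hf0 : f ≠ 0 := by
    obtain ⟨i, hi⟩ := hcon
    intro h; exact hi (congrFun h i)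
  obtain ⟨i₀, hi₀, hmax⟩ := S.exists_max f hf0
  set g : Fin n → S.O₀ := fun i => ⟨f i / f i₀, hmax i⟩ with hg
  have hsum : (∑ i, S.incl (g i) * w i : S.O) = 0 := by
    apply Subtype.ext
    push_cast
    simp only [coe_incl, hg]
    have : ∀ i, algebraMap F₀ F (f i / f i₀) * ((w i : S.O) : F) =
        algebraMap F₀ F (f i₀)⁻¹ * (f i • ((w i : S.O) : F)) := by
      intro i
      rw [Algebra.smul_def, div_eq_mul_inv, map_mul]
      ring
    simp only [this, ← Finset.mul_sum, hf, mul_zero]
  have h0 := S.red₀_eq_zero_of_sum ωk w hw g (by rw [hsum, map_zero]) i₀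
  have h1 : g i₀ = 1 := by
    apply Subtype.ext
    simp [hg, div_self hi₀]
  rw [h1, map_one] at h0
  exact one_ne_zero h0

/-- the lifted basis -/
def liftBasis [FiniteDimensional F₀ F] (hw : ∀ i, S.red (w i) = ωk i) : Basis (Fin n) F₀ F :=
  haveI : Nonempty (Fin n) := nonempty_fin_of_basis ωk
  basisOfLinearIndependentOfCardEqFinrank (S.linearIndependent_lift ωk w hw)
    (by rw [Fintype.card_fin, S.finrank_eq, finrank_eq_card_basis ωk, Fintype.card_fin])

@[simp] theorem liftBasis_apply [FiniteDimensional F₀ F] (hw : ∀ i, S.red (w i) = ωk i)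
    (i : Fin n) : S.liftBasis ωk w hw i = ((w i : S.O) : F) := by
  have : Nonempty (Fin n) := nonempty_fin_of_basis ωk
  rw [liftBasis, coe_basisOfLinearIndependentOfCardEqFinrank]

/-- the coordinates of an element of `O` in the lifted basis lie in `O₀`. -/
theorem repr_mem [FiniteDimensional F₀ F] (hw : ∀ i, S.red (w i) = ωk i) (x : S.O) (i : Fin n) :
    (S.liftBasis ωk w hw).repr (x : F) i ∈ S.O₀ := by
  set ω := S.liftBasis ωk w hw with hω
  set f : Fin n → F₀ := fun i => ω.repr (x : F) i with hf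
  have hx : (x : F) = ∑ i, f i • ((w i : S.O) : F) := by
    conv_lhs => rw [← ω.sum_repr (x : F)]
    simp only [hf, hω, liftBasis_apply]
  by_cases hf0 : f = 0
  · have : f i = 0 := congrFun hf0 i
    show f i ∈ S.O₀
    rw [this]; exact S.O₀.zero_mem
  obtain ⟨i₀, hi₀, hmax⟩ := S.exists_max f hf0
  by_cases hmem : f i₀ ∈ S.O₀
  · have : f i = f i / f i₀ * f i₀ := by rw [div_mul_cancel₀ _ hi₀]
    show f i ∈ S.O₀
    rw [this]
    exact S.O₀.mul_mem _ _ (hmax i) hmem
  · exfalso
    have hinv : (f i₀)⁻¹ ∈ S.O₀ := (S.O₀.mem_or_inv_mem (f i₀)).resolve_left hmem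
    set c : S.O₀ := ⟨(f i₀)⁻¹, hinv⟩ with hc
    have hcnu : ¬ IsUnit (S.incl c) := by
      intro hu
      obtain ⟨d, hd⟩ := hu.exists_right_inv
      apply hmem
      have h1 : algebraMap F₀ F (f i₀)⁻¹ * (d : F) = 1 := by
        have := congrArg (fun y : S.O => (y : F)) hd
        simpa [hc] using this
      have h2 : (d : F) = algebraMap F₀ F (f i₀) := by
        rw [map_inv₀] at h1
        have hne : algebraMap F₀ F (f i₀) ≠ 0 :=
          (map_ne_zero_iff _ (algebraMap F₀ F).injective).mpr hi₀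
        field_simp at h1
        exact h1
      show algebraMap F₀ F (f i₀) ∈ S.O
      rw [← h2]; exact d.2
    have hred0 : S.red (S.incl c) = 0 := (S.red_eq_zero_iff _).mpr hcnu
    set g : Fin n → S.O₀ := fun i => ⟨f i / f i₀, hmax i⟩ with hg
    have hsum : (∑ i, S.incl (g i) * w i : S.O) = S.incl c * x := by
      apply Subtype.ext
      push_cast
      simp only [coe_incl, hg, hc]
      rw [hx, Finset.mul_sum]
      refine Finset.sum_congr rfl fun i _ => ?_
      rw [Algebra.smul_def, div_eq_mul_inv, map_mul]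
      ring
    have h0 := S.red₀_eq_zero_of_sum ωk w hw g
      (by rw [hsum, map_mul, hred0, zero_mul]) i₀
    have h1 : g i₀ = 1 := by
      apply Subtype.ext
      simp [hg, div_self hi₀]
    rw [h1, map_one] at h0
    exact one_ne_zero h0

/-- the coordinates reduce to the coordinates of the reduction. -/
theorem red₀_repr [FiniteDimensional F₀ F] (hw : ∀ i, S.red (w i) = ωk i) (x : S.O) (i : Fin n) :
    S.red₀ ⟨(S.liftBasis ωk w hw).repr (x : F) i, S.repr_mem ωk w hw x i⟩ =
      ωk.repr (S.red x) i := by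
  set ω := S.liftBasis ωk w hw with hω
  set g : Fin n → S.O₀ := fun i => ⟨ω.repr (x : F) i, S.repr_mem ωk w hw x i⟩ with hg
  have hx : x = ∑ i, S.incl (g i) * w i := by
    apply Subtype.ext
    push_cast
    simp only [coe_incl, hg]
    conv_lhs => rw [← ω.sum_repr (x : F)]
    refine Finset.sum_congr rfl fun i _ => ?_
    rw [Algebra.smul_def, hω, liftBasis_apply]
  have hred : S.red x = ∑ i, S.red₀ (g i) • ωk i := by
    conv_lhs => rw [hx]
    rw [map_sum]
    simp only [map_mul, S.red_incl, hw, ← Algebra.smul_def]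
  rw [hred, ωk.repr_sum_self]

/-- **Multiplication matrices reduce.** -/
theorem exists_matrix [FiniteDimensional F₀ F] (hw : ∀ i, S.red (w i) = ωk i) (x : S.O) :
    ∃ M : Matrix (Fin n) (Fin n) S.O₀,
      M.map (S.O₀.subtype) = Algebra.leftMulMatrix (S.liftBasis ωk w hw) (x : F) ∧
      M.map S.red₀ = Algebra.leftMulMatrix ωk (S.red x) := by
  refine ⟨Matrix.of fun i j => ⟨(S.liftBasis ωk w hw).repr (((x * w j : S.O)) : F) i,
    S.repr_mem ωk w hw (x * w j) i⟩, ?_, ?_⟩
  · ext i j
    simp only [Matrix.map_apply, Matrix.of_apply]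
    rw [Algebra.leftMulMatrix_eq_repr_mul, liftBasis_apply]
    rfl
  · ext i j
    simp only [Matrix.map_apply, Matrix.of_apply]
    rw [S.red₀_repr ωk w hw (x * w j) i, Algebra.leftMulMatrix_eq_repr_mul, map_mul, hw]

/-! ### Corollaries: trace, norm, characteristic polynomial -/

section corollaries

variable [FiniteDimensional F₀ F] [FiniteDimensional Fk₀ Fk]

omit [FiniteDimensional F₀ F] in
/-- a basis of `Fk / Fk₀` together with lifts to `O` -/
theorem exists_lift_basis :
    ∃ (n : ℕ) (ωk : Basis (Fin n) Fk₀ Fk) (w : Fin n → S.O), ∀ i, S.red (w i) = ωk i := by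
  choose w hw using fun i => S.red_surjective (Module.finBasis Fk₀ Fk i)
  exact ⟨_, Module.finBasis Fk₀ Fk, w, hw⟩

/-- the trace of an element of `O` lies in `O₀` and reduces to the trace of the reduction. -/
theorem exists_trace_mem (x : S.O) :
    ∃ h : Algebra.trace F₀ F (x : F) ∈ S.O₀,
      S.red₀ ⟨Algebra.trace F₀ F (x : F), h⟩ = Algebra.trace Fk₀ Fk (S.red x) := by
  obtain ⟨n, ωk, w, hw⟩ := S.exists_lift_basis
  obtain ⟨M, hM, hMk⟩ := S.exists_matrix ωk w hw x
  have h1 : Algebra.trace F₀ F (x : F) = ((M.trace : S.O₀) : F₀) := by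
    rw [Algebra.trace_eq_matrix_trace (S.liftBasis ωk w hw), ← hM, Matrix.trace, Matrix.trace]
    simp [Matrix.diag]
  have h2 : Algebra.trace Fk₀ Fk (S.red x) = S.red₀ M.trace := by
    rw [Algebra.trace_eq_matrix_trace ωk, ← hMk, Matrix.trace, Matrix.trace, map_sum]
    simp [Matrix.diag]
  refine ⟨h1 ▸ (M.trace).2, ?_⟩
  rw [h2]
  congr 1
  exact Subtype.ext h1

/-- the norm of an element of `O` lies in `O₀` and reduces to the norm of the reduction. -/
theorem exists_norm_mem (x : S.O) :
    ∃ h : Algebra.norm F₀ (x : F) ∈ S.O₀,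
      S.red₀ ⟨Algebra.norm F₀ (x : F), h⟩ = Algebra.norm Fk₀ (S.red x) := by
  obtain ⟨n, ωk, w, hw⟩ := S.exists_lift_basis
  obtain ⟨M, hM, hMk⟩ := S.exists_matrix ωk w hw x
  have h1 : Algebra.norm F₀ (x : F) = ((M.det : S.O₀) : F₀) := by
    rw [Algebra.norm_eq_matrix_det (S.liftBasis ωk w hw), ← hM]
    exact (RingHom.map_det S.O₀.subtype M).symm
  have h2 : Algebra.norm Fk₀ (S.red x) = S.red₀ M.det := by
    rw [Algebra.norm_eq_matrix_det ωk, ← hMk]
    exact (RingHom.map_det S.red₀ M).symm
  refine ⟨h1 ▸ (M.det).2, ?_⟩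
  rw [h2]
  congr 1
  exact Subtype.ext h1

/-- the characteristic polynomial of (multiplication by) an element of `O` has coefficients in
`O₀` and reduces to the characteristic polynomial of the reduction. -/
theorem exists_charpoly (x : S.O) :
    ∃ P : Polynomial S.O₀, P.Monic ∧ P.natDegree = finrank Fk₀ Fk ∧
      P.map S.O₀.subtype = (LinearMap.mulLeft F₀ (x : F)).charpoly ∧
      P.map S.red₀ = (LinearMap.mulLeft Fk₀ (S.red x)).charpoly := by
  obtain ⟨n, ωk, w, hw⟩ := S.exists_lift_basis
  obtain ⟨M, hM, hMk⟩ := S.exists_matrix ωk w hw x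
  have hn : Nonempty (Fin n) := nonempty_fin_of_basis ωk
  refine ⟨M.charpoly, Matrix.charpoly_monic M, ?_, ?_, ?_⟩
  · rw [Matrix.charpoly_natDegree_eq_dim, finrank_eq_card_basis ωk]
  · rw [← Matrix.charpoly_map, hM, Algebra.leftMulMatrix_apply, LinearMap.charpoly_toMatrix]
    rfl
  · rw [← Matrix.charpoly_map, hMk, Algebra.leftMulMatrix_apply, LinearMap.charpoly_toMatrix]
    rfl

omit [FiniteDimensional Fk₀ Fk] in
theorem aeval_mulLeft_charpoly {K L : Type*} [Field K] [Field L] [Algebra K L]
    [FiniteDimensional K L] (x : L) :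
    Polynomial.aeval x (LinearMap.mulLeft K x).charpoly = 0 := by
  have h := LinearMap.aeval_self_charpoly (LinearMap.mulLeft K x)
  have h2 : LinearMap.mulLeft K x = Algebra.lmul K L x := rfl
  rw [h2, Polynomial.aeval_algHom_apply] at h
  rw [h2]
  exact Algebra.lmul_injective (R := K) (by rw [h, map_zero])

omit [FiniteDimensional F₀ F] [FiniteDimensional Fk₀ Fk] in
/-- evaluation of a polynomial over `O₀` at an element of `O`, inside `O`. -/
theorem coe_eval₂_incl (x : S.O) (p : Polynomial S.O₀) :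
    ((Polynomial.eval₂ S.incl x p : S.O) : F) =
      Polynomial.aeval (x : F) (p.map S.O₀.subtype) := by
  rw [Polynomial.aeval_def, Polynomial.eval₂_map, Polynomial.eval₂_eq_sum_range,
    Polynomial.eval₂_eq_sum_range]
  push_cast
  rfl

omit [FiniteDimensional F₀ F] [FiniteDimensional Fk₀ Fk] in
theorem red_eval₂_incl (x : S.O) (p : Polynomial S.O₀) :
    S.red (Polynomial.eval₂ S.incl x p) = Polynomial.aeval (S.red x) (p.map S.red₀) := by
  rw [Polynomial.hom_eval₂, Polynomial.aeval_def, Polynomial.eval₂_map]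
  congr 1
  ext a
  exact S.red_incl a

open Polynomial in
/-- **Primitive elements.**  If the reduction of `x ∈ O` generates `Fk / Fk₀` (its minimal
polynomial has full degree), then so does `x`, both minimal polynomials come from one monic
polynomial over `O₀`, and `f'(x)` reduces to `f̄'(x̄)`. -/
theorem exists_minpoly_of_primitive (x : S.O)
    (hprim : (minpoly Fk₀ (S.red x)).natDegree = finrank Fk₀ Fk) :
    ∃ P : Polynomial S.O₀, P.Monic ∧ P.natDegree = finrank Fk₀ Fk ∧
      P.map S.O₀.subtype = minpoly F₀ (x : F) ∧ P.map S.red₀ = minpoly Fk₀ (S.red x) ∧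
      S.red (eval₂ S.incl x (derivative P)) =
        aeval (S.red x) (derivative (minpoly Fk₀ (S.red x))) ∧
      ((eval₂ S.incl x (derivative P) : S.O) : F) =
        aeval (x : F) (derivative (minpoly F₀ (x : F))) := by
  obtain ⟨P, hPm, hPdeg, hP, hPk⟩ := S.exists_charpoly x
  have hintk : IsIntegral Fk₀ (S.red x) := IsIntegral.of_finite Fk₀ _
  have hint : IsIntegral F₀ (x : F) := IsIntegral.of_finite F₀ _
  -- the `k`-side: minimal polynomial = characteristic polynomial
  have hk : P.map S.red₀ = minpoly Fk₀ (S.red x) := by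
    have hdvd : minpoly Fk₀ (S.red x) ∣ P.map S.red₀ := by
      apply minpoly.dvd
      rw [hPk]
      exact aeval_mulLeft_charpoly _
    refine eq_of_monic_of_dvd_of_natDegree_le (minpoly.monic hintk) (hPm.map _) hdvd ?_
    rw [hPm.natDegree_map, hPdeg, hprim]
  -- the characteristic-0 side
  have hdvd0 : minpoly F₀ (x : F) ∣ P.map S.O₀.subtype := by
    apply minpoly.dvd
    rw [hP]
    exact aeval_mulLeft_charpoly _
  have h0 : P.map S.O₀.subtype = minpoly F₀ (x : F) := by
    obtain ⟨m₀, hm₀⟩ := IsIntegrallyClosed.eq_map_mul_C_of_dvd (R := S.O₀) F₀ hPm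
      (g := minpoly F₀ (x : F)) hdvd0
    rw [(minpoly.monic hint).leadingCoeff, C_1, mul_one] at hm₀
    have hm₀' : m₀.map S.O₀.subtype = minpoly F₀ (x : F) := hm₀
    have hm₀monic : m₀.Monic := by
      have hinj : Function.Injective S.O₀.subtype := Subtype.val_injective
      exact Polynomial.monic_of_injective hinj (hm₀'.symm ▸ minpoly.monic hint)
    have hzero : eval₂ S.incl x m₀ = 0 := by
      apply Subtype.ext
      rw [S.coe_eval₂_incl, hm₀', minpoly.aeval]
      rfl
    have hkill : aeval (S.red x) (m₀.map S.red₀) = 0 := by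
      rw [← S.red_eval₂_incl, hzero, map_zero]
    have hdvdk : minpoly Fk₀ (S.red x) ∣ m₀.map S.red₀ := minpoly.dvd _ _ hkill
    have hdeg : finrank Fk₀ Fk ≤ m₀.natDegree := by
      have := natDegree_le_of_dvd hdvdk (hm₀monic.map _).ne_zero
      rwa [hprim, hm₀monic.natDegree_map] at this
    refine eq_of_monic_of_dvd_of_natDegree_le (minpoly.monic hint) (hPm.map _) hdvd0 ?_
    rw [hPm.natDegree_map, hPdeg, ← hm₀', hm₀monic.natDegree_map]
    exact hdeg
  refine ⟨P, hPm, hPdeg, h0, hk, ?_, ?_⟩
  · rw [S.red_eval₂_incl, ← hk, derivative_map]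
  · rw [S.coe_eval₂_incl, ← h0, derivative_map]

end corollaries

end RedExt

end Fermat.Agent.S18lib.Norm
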