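/-
S18lib / Norm / Monogenic  (helper8)

N2 of the normality package: the different witness `z = f'(y)`.

Both sides carry a Dedekind model over the polynomial ring: `BL` over `L[X]` inside `F`
(finite separable over `RatFunc L`), `Bk` over `k[X]` inside `Fk`; `S : RedExt (RatFunc L) F
(RatFunc k) Fk` is the reduction.  Given `ȳ ∈ Bk` generating `Bk` up to `s₁ ∈ k[X]`
(`s₁ • Bk ⊆ k[X][ȳ]`), a lift `y ∈ O` of `ȳ` integral over `L[X]`, and the local-generator form of
the different on the `k`-side (`Norm/LocalGen`), the element `z = f'(y) ∈ O`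
(`f` the minimal polynomial of `y`) satisfies
* `ord_P z ≥ d_P` at every prime `P` of `BL` (`d_P` = exponent of the different of `BL / L[X]`),
* `ord_Q (red z) ≤ d_Q` at every prime `Q` of `Bk` not containing `s₁`.
-/
import Mathlib
import Fermat.Agent.S18lib.Norm.CharpolyRed
import Fermat.Agent.ProgramR.FunctionField.PlaceDedekind
import Fermat.Agent.ProgramR.Alg.TraceDual

set_option autoImplicit false

noncomputable section

namespace Fermat.Agent.S18lib.Norm

open Polynomial IsDedekindDomain UniqueFactorizationMonoid AlgebraicCurve IntermediateField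

attribute [local instance] FractionRing.liftAlgebra FractionRing.isScalarTower_liftAlgebra

/-! ### generalities on primitive elements and `f'(x)` in the AKLB setting -/

section AKLB

variable {A K E B : Type*} [CommRing A] [Field K] [CommRing B] [Field E]
  [Algebra A K] [Algebra B E] [Algebra A B] [Algebra K E] [Algebra A E]
  [IsScalarTower A K E] [IsScalarTower A B E]
  [IsDomain A] [IsFractionRing A K] [IsIntegrallyClosed A] [IsDomain B]
  [FiniteDimensional K E]

theorem natDegree_minpoly_of_adjoin_eq_top {x : E} (hx : Algebra.adjoin K {x} = ⊤) :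
    (minpoly K x).natDegree = Module.finrank K E := by
  have hint : IsIntegral K x := IsIntegral.of_finite K x
  have h1 : K⟮x⟯ = ⊤ := by
    apply IntermediateField.toSubalgebra_injective
    rw [IntermediateField.adjoin_simple_toSubalgebra_of_isAlgebraic hint.isAlgebraic, hx,
      IntermediateField.top_toSubalgebra]
  rw [← IntermediateField.adjoin.finrank hint, h1, IntermediateField.finrank_top']

theorem adjoin_eq_top_of_natDegree_minpoly {x : E}
    (hx : (minpoly K x).natDegree = Module.finrank K E) : Algebra.adjoin K {x} = ⊤ := by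
  have hint : IsIntegral K x := IsIntegral.of_finite K x
  have h1 : K⟮x⟯ = ⊤ := (Field.primitive_element_iff_minpoly_natDegree_eq K x).mpr hx
  rw [← IntermediateField.adjoin_simple_toSubalgebra_of_isAlgebraic hint.isAlgebraic, h1,
    IntermediateField.top_toSubalgebra]

omit [FiniteDimensional K E] in
/-- `f'(x)` computed in the field is the image of `f'(x)` computed in the ring. -/
theorem aeval_derivative_minpoly_algebraMap (x : B) (hx : IsIntegral A x)
    (_hinj : Function.Injective (algebraMap B E)) :
    aeval (algebraMap B E x) (derivative (minpoly K (algebraMap B E x))) =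
      algebraMap B E (aeval x (derivative (minpoly A x))) := by
  have : Module.IsTorsionFree A B := by
    have hinjAE : Function.Injective (algebraMap A E) := by
      rw [IsScalarTower.algebraMap_eq A K E]
      exact (algebraMap K E).injective.comp (IsFractionRing.injective A K)
    have hinjAB : Function.Injective (algebraMap A B) := by
      rw [IsScalarTower.algebraMap_eq A B E] at hinjAE
      exact Function.Injective.of_comp hinjAE
    exact Module.isTorsionFree_iff_algebraMap_injective.mpr hinjAB
  rw [minpoly.isIntegrallyClosed_eq_field_fractions K E hx, derivative_map,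
    aeval_map_algebraMap, aeval_algebraMap_apply]

end AKLB

/-! ### counts and divisibility -/

section count

variable {B : Type*} [CommRing B] [IsDedekindDomain B]

theorem pow_dvd_iff_le_count (P : HeightOneSpectrum B) {I : Ideal B} (hI : I ≠ ⊥) (m : ℕ) :
    P.asIdeal ^ m ∣ I ↔ m ≤ (normalizedFactors I).count P.asIdeal := by
  classical
  have hirr : Irreducible P.asIdeal := P.irreducible
  rw [pow_dvd_iff_le_emultiplicity, emultiplicity_eq_count_normalizedFactors hirr hI,
    normalize_eq]
  exact_mod_cast Iff.rfl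

theorem count_le_count_of_le (P : HeightOneSpectrum B) {I J : Ideal B} (hI : I ≠ ⊥)
    (hIJ : I ≤ J) : (normalizedFactors J).count P.asIdeal ≤ (normalizedFactors I).count P.asIdeal := by
  classical
  have hJ : J ≠ ⊥ := fun h => hI (le_bot_iff.mp (h ▸ hIJ))
  rw [← pow_dvd_iff_le_count P hI]
  exact ((pow_dvd_iff_le_count P hJ _).mpr le_rfl).trans (Ideal.dvd_iff_le.mpr hIJ)

end count

/-! ### the witness -/

section witness

variable {L k : Type*} [Field L] [Field k]
  {F Fk : Type*} [Field F] [Field Fk]
  [Algebra (RatFunc L) F] [Algebra L[X] F] [IsScalarTower L[X] (RatFunc L) F]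
  [FiniteDimensional (RatFunc L) F] [Algebra.IsSeparable (RatFunc L) F]
  [Algebra (RatFunc k) Fk] [Algebra k[X] Fk] [IsScalarTower k[X] (RatFunc k) Fk]
  [FiniteDimensional (RatFunc k) Fk] [Algebra.IsSeparable (RatFunc k) Fk]
  {BL : Type*} [CommRing BL] [IsDedekindDomain BL] [Algebra L[X] BL] [Algebra BL F]
  [IsScalarTower L[X] BL F] [IsFractionRing BL F] [IsIntegralClosure BL L[X] F]
  [Module.IsTorsionFree L[X] BL]
  [Algebra L F] [Algebra L BL] [IsScalarTower L BL F]
  {Bk : Type*} [CommRing Bk] [IsDedekindDomain Bk] [Algebra k[X] Bk] [Algebra Bk Fk]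
  [IsScalarTower k[X] Bk Fk] [IsFractionRing Bk Fk] [IsIntegralClosure Bk k[X] Fk]
  [Module.IsTorsionFree k[X] Bk] [Module.Finite k[X] Bk]
  [Algebra k Fk] [Algebra k Bk] [IsScalarTower k Bk Fk]

omit [IsDedekindDomain Bk] [IsFractionRing Bk Fk] [Module.IsTorsionFree k[X] Bk]
  [Module.Finite k[X] Bk] [Algebra k Fk] [Algebra k Bk] [IsScalarTower k Bk Fk] [Algebra.IsSeparable (RatFunc k) Fk] in
/-- a local generator of `Bk` over `k[X]` is a primitive element of `Fk / k(X)` -/
theorem adjoin_eq_top_of_local_generator (ybar : Bk) (s₁ : k[X]) (hs₁ : s₁ ≠ 0)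
    (hgen : ∀ b : Bk, algebraMap k[X] Bk s₁ * b ∈ Algebra.adjoin k[X] {ybar}) :
    Algebra.adjoin (RatFunc k) {algebraMap Bk Fk ybar} = ⊤ := by
  set T := Algebra.adjoin (RatFunc k) {algebraMap Bk Fk ybar} with hT
  have hmap : ∀ x ∈ Algebra.adjoin k[X] {ybar}, algebraMap Bk Fk x ∈ T := by
    intro x hx
    induction hx using Algebra.adjoin_induction with
    | mem x hx =>
      rw [Set.mem_singleton_iff] at hx
      rw [hx]
      exact Algebra.subset_adjoin (Set.mem_singleton _)
    | algebraMap p =>
      rw [← IsScalarTower.algebraMap_apply k[X] Bk Fk,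
        IsScalarTower.algebraMap_apply k[X] (RatFunc k) Fk]
      exact Subalgebra.algebraMap_mem _ _
    | add x y _ _ hx hy => rw [map_add]; exact Subalgebra.add_mem _ hx hy
    | mul x y _ _ hx hy => rw [map_mul]; exact Subalgebra.mul_mem _ hx hy
  rw [eq_top_iff]
  intro f _
  have halg : IsIntegral (RatFunc k) f := IsIntegral.of_finite _ f
  obtain ⟨m, hm⟩ := IsIntegral.exists_multiple_integral_of_isLocalization (R := k[X])
    (nonZeroDivisors k[X]) f halg
  obtain ⟨b, hb⟩ := IsIntegralClosure.isIntegral_iff (A := Bk).mp hm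
  have h1 : algebraMap Bk Fk (algebraMap k[X] Bk s₁ * b) ∈ T := hmap _ (hgen b)
  have hm0 : (m : k[X]) ≠ 0 := nonZeroDivisors.coe_ne_zero m
  have h2 : algebraMap Bk Fk (algebraMap k[X] Bk s₁ * b) =
      (algebraMap k[X] (RatFunc k) (s₁ * m)) • f := by
    rw [map_mul, hb, Submonoid.smul_def, Algebra.smul_def, Algebra.smul_def,
      ← IsScalarTower.algebraMap_apply k[X] Bk Fk, map_mul, map_mul,
      ← IsScalarTower.algebraMap_apply k[X] (RatFunc k) Fk,
      ← IsScalarTower.algebraMap_apply k[X] (RatFunc k) Fk]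
    ring
  have h3 : algebraMap k[X] (RatFunc k) (s₁ * m) ≠ 0 := by
    rw [ne_eq, map_eq_zero_iff _ (IsFractionRing.injective k[X] (RatFunc k))]
    exact mul_ne_zero hs₁ hm0
  have h4 : f = (algebraMap k[X] (RatFunc k) (s₁ * m))⁻¹ •
      algebraMap Bk Fk (algebraMap k[X] Bk s₁ * b) := by
    rw [h2, smul_smul, inv_mul_cancel₀ h3, one_smul]
  rw [h4]
  exact Subalgebra.smul_mem _ h1 _

/-- **The different witness.** -/
theorem exists_different_witness (S : RedExt (RatFunc L) F (RatFunc k) Fk)
    (ybar : Bk) (s₁ : k[X]) (hs₁ : s₁ ≠ 0)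
    (hgen : ∀ b : Bk, algebraMap k[X] Bk s₁ * b ∈ Algebra.adjoin k[X] {ybar})
    (y : S.O) (hyint : IsIntegral L[X] ((y : S.O) : F))
    (hyred : S.red y = algebraMap Bk Fk ybar)
    (hc : ∀ Q : HeightOneSpectrum Bk, algebraMap k[X] Bk s₁ ∉ Q.asIdeal → ∀ m : ℕ,
      Q.asIdeal ^ m ∣ Ideal.span {aeval ybar (derivative (minpoly k[X] ybar))} →
        Q.asIdeal ^ m ∣ differentIdeal k[X] Bk) :
    ∃ z : S.O, S.red z ≠ 0 ∧
      (∀ P : HeightOneSpectrum BL,
        ((normalizedFactors (differentIdeal L[X] BL)).count P.asIdeal : ℤ) ≤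
          (Place.ofHeightOneSpectrum (K := L) P).ord ((z : S.O) : F)) ∧
      (∀ Q : HeightOneSpectrum Bk, algebraMap k[X] Bk s₁ ∉ Q.asIdeal →
        (Place.ofHeightOneSpectrum (K := k) Q).ord (S.red z) ≤
          ((normalizedFactors (differentIdeal k[X] Bk)).count Q.asIdeal : ℤ)) := by
  classical
  -- the `k`-side: `ȳ` is primitive
  have hintk : IsIntegral k[X] ybar := IsIntegralClosure.isIntegral k[X] Fk ybar
  have hprimk : Algebra.adjoin (RatFunc k) {algebraMap Bk Fk ybar} = ⊤ :=
    adjoin_eq_top_of_local_generator ybar s₁ hs₁ hgen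
  have hdegk : (minpoly (RatFunc k) (S.red y)).natDegree = Module.finrank (RatFunc k) Fk := by
    rw [hyred]
    exact natDegree_minpoly_of_adjoin_eq_top hprimk
  obtain ⟨P, hPm, hPdeg, hP0, hPk, hredz, hcoez⟩ := S.exists_minpoly_of_primitive y hdegk
  set z : S.O := eval₂ S.incl y (derivative P) with hz
  -- the characteristic-0 side: `y` is primitive
  have hdeg0 : (minpoly (RatFunc L) ((y : S.O) : F)).natDegree = Module.finrank (RatFunc L) F := by
    rw [← hP0, hPm.natDegree_map, hPdeg, S.finrank_eq]
  have hprim0 : Algebra.adjoin (RatFunc L) {((y : S.O) : F)} = ⊤ :=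
    adjoin_eq_top_of_natDegree_minpoly hdeg0
  obtain ⟨yB, hyB⟩ := IsIntegralClosure.isIntegral_iff (A := BL).mp hyint
  have hintL : IsIntegral L[X] yB := IsIntegralClosure.isIntegral L[X] F yB
  -- `z` on both sides as elements of the rings
  set zB : BL := aeval yB (derivative (minpoly L[X] yB)) with hzB
  set zk : Bk := aeval ybar (derivative (minpoly k[X] ybar)) with hzk
  have hzF : ((z : S.O) : F) = algebraMap BL F zB := by
    rw [hcoez, ← hyB, aeval_derivative_minpoly_algebraMap (K := RatFunc L) yB hintL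
      (IsFractionRing.injective BL F)]
  have hzFk : S.red z = algebraMap Bk Fk zk := by
    rw [hredz, hyred, aeval_derivative_minpoly_algebraMap (K := RatFunc k) ybar hintk
      (IsFractionRing.injective Bk Fk)]
  -- nonvanishing
  have hredne : S.red z ≠ 0 := by
    rw [hredz]
    exact (Algebra.IsSeparable.isSeparable (RatFunc k) (S.red y)).aeval_derivative_ne_zero
      (minpoly.aeval _ _)
  have hzk0 : zk ≠ 0 := by
    intro h0
    rw [hzFk, h0, map_zero] at hredne
    exact hredne rfl
  have hz0 : (z : S.O) ≠ 0 := by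
    intro h0
    rw [h0, map_zero] at hredne
    exact hredne rfl
  have hzB0 : zB ≠ 0 := by
    intro h0
    apply hz0
    apply Subtype.ext
    rw [hzF, h0, map_zero]
    rfl
  refine ⟨z, hredne, ?_, ?_⟩
  · intro P
    have hmem : zB ∈ differentIdeal L[X] BL := by
      have hyB' : Algebra.adjoin (RatFunc L) {algebraMap BL F yB} = ⊤ := by rw [hyB]; exact hprim0
      exact aeval_derivative_mem_differentIdeal L[X] (RatFunc L) F yB hyB'
    have hle : Ideal.span {zB} ≤ differentIdeal L[X] BL :=
      (Ideal.span_singleton_le_iff_mem _).mpr hmem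
    have hspan0 : (Ideal.span {zB} : Ideal BL) ≠ ⊥ := by
      rwa [ne_eq, Ideal.span_singleton_eq_bot]
    have h1 := count_le_count_of_le P hspan0 hle
    rw [hzF, ProgramR.FF.ord_algebraMap_eq_count (K := L) (F := F) P hzB0]
    exact_mod_cast h1
  · intro Q hQ
    have hspan0 : (Ideal.span {zk} : Ideal Bk) ≠ ⊥ := by
      rwa [ne_eq, Ideal.span_singleton_eq_bot]
    have hD0 : differentIdeal k[X] Bk ≠ ⊥ := by
      have hsep : Algebra.IsSeparable (FractionRing k[X]) (FractionRing Bk) :=
        Fermat.Agent.ProgramR.Alg.isSeparable_fractionRing_aux k[X] (RatFunc k) Fk Bk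
      exact differentIdeal_ne_bot
    have h1 : Q.asIdeal ^ ((normalizedFactors (Ideal.span {zk})).count Q.asIdeal) ∣
        Ideal.span {zk} := (pow_dvd_iff_le_count Q hspan0 _).mpr le_rfl
    have h2 := hc Q hQ _ h1
    rw [pow_dvd_iff_le_count Q hD0] at h2
    rw [hzFk, ProgramR.FF.ord_algebraMap_eq_count (K := k) (F := Fk) Q hzk0]
    exact_mod_cast h2

end witness

end Fermat.Agent.S18lib.Norm
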