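/-
S18lib / Norm / OfGauss  (helper8)

Constructor of the `RedExt` structure of `Norm/CharpolyRed` from a weak reduction datum
`G : GaussDatum A F Fk` and a subfield situation `F₀ ⊆ F`, `Fk₀ ⊆ Fk` such that the reduction of
`O ∩ F₀` lands in `Fk₀` and the degrees agree.
Used twice in the genus comparison: `RatFunc L ⊆ FBar N` and `FBar N ⊆ FBar N'`.
-/
import Mathlib
import Fermat.Agent.S18lib.Weak.Lemmas
import Fermat.Agent.S18lib.Norm.CharpolyRed

set_option autoImplicit false

noncomputable section

namespace Fermat.Agent.S18lib.Norm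

open Module

variable {L : Type*} [Field L] {A : ValuationSubring L}
variable {F : Type*} [Field F] [Algebra L F]
variable {Fk : Type*} [Field Fk] [Algebra (IsLocalRing.ResidueField A) Fk]
variable {F₀ Fk₀ : Type*} [Field F₀] [Field Fk₀] [Algebra F₀ F] [Algebra Fk₀ Fk]

/-- The `RedExt` attached to a Gauss datum on `F` and a compatible pair of subfields. -/
def RedExt.ofGaussDatum (G : GaussDatum A F Fk)
    (hbase : ∀ q : F₀, algebraMap F₀ F q ∈ G.O →
      ∃ qb : Fk₀, G.redF (algebraMap F₀ F q) = algebraMap Fk₀ Fk qb)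
    (hdeg : finrank F₀ F = finrank Fk₀ Fk) : RedExt F₀ F Fk₀ Fk where
  O := G.O
  red := G.red
  red_surjective := G.red_surjective
  red_eq_zero_iff x := by
    rw [G.red_eq_zero_iff, IsLocalRing.mem_maximalIdeal, mem_nonunits_iff]
  red₀ :=
    { toFun := fun x => Classical.choose (hbase (x : F₀) x.2)
      map_one' := by
        apply (algebraMap Fk₀ Fk).injective
        rw [← Classical.choose_spec (hbase ((1 : G.O.comap (algebraMap F₀ F)) : F₀)
          (1 : G.O.comap (algebraMap F₀ F)).2)]
        simp
      map_mul' := fun x y => by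
        apply (algebraMap Fk₀ Fk).injective
        rw [map_mul, ← Classical.choose_spec (hbase (x : F₀) x.2),
          ← Classical.choose_spec (hbase (y : F₀) y.2),
          ← Classical.choose_spec (hbase ((x * y : G.O.comap (algebraMap F₀ F)) : F₀) (x * y).2)]
        show G.redF (algebraMap F₀ F ((x : F₀) * (y : F₀))) = _
        rw [map_mul]
        exact G.redF_mul x.2 y.2
      map_zero' := by
        apply (algebraMap Fk₀ Fk).injective
        rw [← Classical.choose_spec (hbase ((0 : G.O.comap (algebraMap F₀ F)) : F₀)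
          (0 : G.O.comap (algebraMap F₀ F)).2)]
        simp
      map_add' := fun x y => by
        apply (algebraMap Fk₀ Fk).injective
        rw [map_add, ← Classical.choose_spec (hbase (x : F₀) x.2),
          ← Classical.choose_spec (hbase (y : F₀) y.2),
          ← Classical.choose_spec (hbase ((x + y : G.O.comap (algebraMap F₀ F)) : F₀) (x + y).2)]
        show G.redF (algebraMap F₀ F ((x : F₀) + (y : F₀))) = _
        rw [map_add]
        exact G.redF_add x.2 y.2 }
  red_algebraMap x := by
    show G.red ⟨algebraMap F₀ F (x : F₀), x.2⟩ = algebraMap Fk₀ Fk (Classical.choose _)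
    rw [← Classical.choose_spec (hbase (x : F₀) x.2), G.redF_of_mem x.2]
  finrank_eq := hdeg

variable (G : GaussDatum A F Fk)
  (hbase : ∀ q : F₀, algebraMap F₀ F q ∈ G.O →
    ∃ qb : Fk₀, G.redF (algebraMap F₀ F q) = algebraMap Fk₀ Fk qb)
  (hdeg : finrank F₀ F = finrank Fk₀ Fk)

@[simp] theorem RedExt.ofGaussDatum_O : (RedExt.ofGaussDatum G hbase hdeg).O = G.O := rfl

@[simp] theorem RedExt.ofGaussDatum_red : (RedExt.ofGaussDatum G hbase hdeg).red = G.red := rfl

theorem RedExt.ofGaussDatum_red_apply (x : G.O) :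
    (RedExt.ofGaussDatum G hbase hdeg).red x = G.redF (x : F) := by
  rw [G.redF_of_mem x.2]
  rfl

theorem RedExt.algebraMap_ofGaussDatum_red₀ (x : (RedExt.ofGaussDatum G hbase hdeg).O₀) :
    algebraMap Fk₀ Fk ((RedExt.ofGaussDatum G hbase hdeg).red₀ x) =
      G.redF (algebraMap F₀ F (x : F₀)) :=
  (Classical.choose_spec (hbase (x : F₀) x.2)).symm

end Fermat.Agent.S18lib.Norm
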