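/-
S18lib / Norm / Main  (helper8)

Final forms of the normality package.

* `exists_witness_of_lifts` : normality of the reduced model at `X = c` (`t • b̄` lifts to an
  integral element of `O` for every `b̄ ∈ Bk`, `t(c) ≠ 0`) gives the different witness `z`:
  `ord_P z ≥ d_P` at all primes of `BL`, `ord_Q (red z) ≤ d_Q` at all primes `Q ∋ X - c`
  of `Bk`.
* `mapDomain_le_count` : with a full reduction datum `D` (place map `r`), the local inequality
  `∑_{P ↦ Q} d_P ≤ d_Q` at every finite place `Q` over `x̄ = c`, in the form consumed by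
  `G.exists_genus_of_mapDomain_le`.
-/
import Mathlib
import Fermat.Agent.S18lib.Norm.Monogenic
import Fermat.Agent.S18lib.Norm.LocalGen
import Fermat.Agent.S18lib.Norm.OfGauss
import Fermat.Agent.S18lib.Norm.Conservation
import Fermat.Agent.S18lib.RRgen.Places

set_option autoImplicit false

noncomputable section

namespace Fermat.Agent.S18lib.Norm

open Polynomial IsDedekindDomain UniqueFactorizationMonoid AlgebraicCurve

section witness

variable {L k : Type*} [Field L] [Field k] [Infinite k]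
  {F Fk : Type*} [Field F] [Field Fk]
  [Algebra (RatFunc L) F] [Algebra L[X] F] [IsScalarTower L[X] (RatFunc L) F]
  [FiniteDimensional (RatFunc L) F] [Algebra.IsSeparable (RatFunc L) F]
  [Algebra (RatFunc k) Fk] [Algebra k[X] Fk] [IsScalarTower k[X] (RatFunc k) Fk]
  [FiniteDimensional (RatFunc k) Fk] [Algebra.IsSeparable (RatFunc k) Fk]
  {BL : Type*} [CommRing BL] [IsDedekindDomain BL] [Algebra L[X] BL] [Algebra BL F]
  [IsScalarTower L[X] BL F] [IsFractionRing BL F] [IsIntegralClosure BL L[X] F]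
  [Module.IsTorsionFree L[X] BL]
  [Algebra L F] [Algebra L BL] [IsScalarTower L BL F]
  {Bk : Type*} [CommRing Bk] [IsDedekindDomain Bk] [Algebra k[X] Bk] [Algebra Bk Fk]
  [IsScalarTower k[X] Bk Fk] [IsFractionRing Bk Fk] [IsIntegralClosure Bk k[X] Fk]
  [Module.IsTorsionFree k[X] Bk] [Module.Finite k[X] Bk]
  [Algebra k Fk] [Algebra k Bk] [IsScalarTower k Bk Fk] [IsScalarTower k k[X] Bk]

/-- **Normality at `X = c` gives the different witness.** -/
theorem exists_witness_of_lifts (S : RedExt (RatFunc L) F (RatFunc k) Fk) (c : k)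
    (t : k[X]) (ht : t.eval c ≠ 0)
    (hlift : ∀ b : Bk, ∃ β : S.O, IsIntegral L[X] ((β : S.O) : F) ∧
      S.red β = algebraMap Bk Fk (algebraMap k[X] Bk t * b))
    (hres : ∀ Q : Ideal Bk, Q.IsMaximal → Function.Surjective (algebraMap k (Bk ⧸ Q))) :
    ∃ z : S.O, S.red z ≠ 0 ∧
      (∀ P : HeightOneSpectrum BL,
        ((normalizedFactors (differentIdeal L[X] BL)).count P.asIdeal : ℤ) ≤
          (Place.ofHeightOneSpectrum (K := L) P).ord ((z : S.O) : F)) ∧
      (∀ Q : HeightOneSpectrum Bk, algebraMap k[X] Bk (X - C c) ∈ Q.asIdeal →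
        (Place.ofHeightOneSpectrum (K := k) Q).ord (S.red z) ≤
          ((normalizedFactors (differentIdeal k[X] Bk)).count Q.asIdeal : ℤ)) := by
  obtain ⟨y0, s, hs, hgen0⟩ := exists_local_generator (k := k) (B := Bk) hres c
  obtain ⟨m, hgen⟩ := exists_smul_mem_adjoin_mul y0 s t hgen0
  set s₁ : k[X] := s * t ^ m with hs₁
  set ybar : Bk := algebraMap k[X] Bk t * y0 with hybar
  have hs₁c : s₁.eval c ≠ 0 := by
    rw [hs₁, eval_mul, eval_pow]
    exact mul_ne_zero hs (pow_ne_zero _ ht)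
  have hs₁0 : s₁ ≠ 0 := by
    intro h
    rw [h, eval_zero] at hs₁c
    exact hs₁c rfl
  obtain ⟨y, hyint, hyred⟩ := hlift y0
  -- the local-generator form of the different on the `k`-side
  have hprimk : Algebra.adjoin (RatFunc k) {algebraMap Bk Fk ybar} = ⊤ :=
    adjoin_eq_top_of_local_generator ybar s₁ hs₁0 hgen
  have hc : ∀ Q : HeightOneSpectrum Bk, algebraMap k[X] Bk s₁ ∉ Q.asIdeal → ∀ m : ℕ,
      Q.asIdeal ^ m ∣ Ideal.span {aeval ybar (derivative (minpoly k[X] ybar))} →
        Q.asIdeal ^ m ∣ differentIdeal k[X] Bk := by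
    intro Q hQ m hm
    have := Q.isPrime
    exact pow_dvd_differentIdeal_of_local_generator k[X] (RatFunc k) Fk ybar hprimk s₁ hgen
      Q.asIdeal hQ m hm
  obtain ⟨z, hz, h1, h2⟩ :=
    exists_different_witness (BL := BL) S ybar s₁ hs₁0 hgen y hyint hyred hc
  refine ⟨z, hz, h1, fun Q hQ => h2 Q ?_⟩
  -- `s₁ ∉ Q` because `s₁` and `X - c` are coprime
  intro hsQ
  have hcop : IsCoprime s₁ (X - C c) := by
    have hirr : Irreducible (X - C c : k[X]) := irreducible_X_sub_C c
    refine (hirr.coprime_iff_not_dvd.mpr ?_).symm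
    intro hdvd
    exact hs₁c (dvd_iff_isRoot.mp hdvd)
  obtain ⟨u, v, huv⟩ := hcop
  have h1Q : (1 : Bk) ∈ Q.asIdeal := by
    have : (1 : Bk) = algebraMap k[X] Bk u * algebraMap k[X] Bk s₁ +
        algebraMap k[X] Bk v * algebraMap k[X] Bk (X - C c) := by
      rw [← map_mul, ← map_mul, ← map_add, huv, map_one]
    rw [this]
    exact Q.asIdeal.add_mem (Q.asIdeal.mul_mem_left _ hsQ) (Q.asIdeal.mul_mem_left _ hQ)
  exact Q.isPrime.ne_top ((Ideal.eq_top_iff_one _).mpr h1Q)

end witness

/-! ### the local inequality for a full reduction datum -/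

section datum

variable {L : Type*} [Field L] {A : ValuationSubring L} [Infinite (IsLocalRing.ResidueField A)]

variable {F : Type*} [Field F] [Algebra L F] {Fk : Type*} [Field Fk]
  [Algebra (IsLocalRing.ResidueField A) Fk]
  [Algebra (RatFunc L) F] [IsScalarTower L (RatFunc L) F] [Algebra L[X] F]
  [IsScalarTower L[X] (RatFunc L) F]
  [FiniteDimensional (RatFunc L) F] [Algebra.IsSeparable (RatFunc L) F]
  [Algebra (RatFunc (IsLocalRing.ResidueField A)) Fk]
  [IsScalarTower (IsLocalRing.ResidueField A) (RatFunc (IsLocalRing.ResidueField A)) Fk]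
  [Algebra (IsLocalRing.ResidueField A)[X] Fk]
  [IsScalarTower (IsLocalRing.ResidueField A)[X] (RatFunc (IsLocalRing.ResidueField A)) Fk]
  [FiniteDimensional (RatFunc (IsLocalRing.ResidueField A)) Fk]
  [Algebra.IsSeparable (RatFunc (IsLocalRing.ResidueField A)) Fk]
  (BL : Type*) [CommRing BL] [IsDedekindDomain BL] [Algebra L[X] BL] [Module.Finite L[X] BL]
  [Algebra BL F] [IsScalarTower L[X] BL F] [IsFractionRing BL F]
  [Module.IsTorsionFree L[X] BL] [Algebra L BL] [IsScalarTower L BL F]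
  (Bk : Type*) [CommRing Bk] [IsDedekindDomain Bk] [Algebra (IsLocalRing.ResidueField A)[X] Bk]
  [Module.Finite (IsLocalRing.ResidueField A)[X] Bk]
  [Algebra Bk Fk] [IsScalarTower (IsLocalRing.ResidueField A)[X] Bk Fk] [IsFractionRing Bk Fk]
  [Module.IsTorsionFree (IsLocalRing.ResidueField A)[X] Bk]
  [Algebra (IsLocalRing.ResidueField A) Bk] [IsScalarTower (IsLocalRing.ResidueField A) Bk Fk]
  [IsScalarTower (IsLocalRing.ResidueField A) (IsLocalRing.ResidueField A)[X] Bk]
  [HasPrincipalDivisors L F] [HasPrincipalDivisors (IsLocalRing.ResidueField A) Fk]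

local notation "k" => IsLocalRing.ResidueField A

/-- **The local inequality `∑_{P ↦ Q} d_P ≤ d_Q` at the finite places over `x̄ = c`.** -/
theorem mapDomain_le_count (D : RedDatum A F Fk)
    (hbase : ∀ q : RatFunc L, algebraMap (RatFunc L) F q ∈ D.O →
      ∃ qb : RatFunc k, D.redF (algebraMap (RatFunc L) F q) = algebraMap (RatFunc k) Fk qb)
    (hdeg : Module.finrank (RatFunc L) F = Module.finrank (RatFunc k) Fk)
    (hpole : ∀ P : Place L F, P.ord (RRgen.xF L F) < 0 → (D.r P).ord (RRgen.xF k Fk) < 0)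
    (c : k) (t : k[X]) (ht : t.eval c ≠ 0)
    (hlift : ∀ b : Bk, ∃ β : F, β ∈ D.O ∧ IsIntegral L[X] β ∧
      D.redF β = algebraMap Bk Fk (algebraMap k[X] Bk t * b))
    (hres : ∀ Q : Ideal Bk, Q.IsMaximal → Function.Surjective (algebraMap k (Bk ⧸ Q)))
    (d0 : Place L F →₀ ℕ)
    (hd0 : ∀ P0 : HeightOneSpectrum BL, d0 (RRgen.placeFin L F BL P0) =
      (normalizedFactors (differentIdeal L[X] BL)).count P0.asIdeal)
    (Q0 : HeightOneSpectrum Bk) (hQ0 : algebraMap k[X] Bk (X - C c) ∈ Q0.asIdeal) :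
    Finsupp.mapDomain D.r d0 (RRgen.placeFin k Fk Bk Q0) ≤
      (normalizedFactors (differentIdeal k[X] Bk)).count Q0.asIdeal := by
  have : Algebra.IsIntegral L[X] BL := inferInstance
  have : IsIntegralClosure BL L[X] F := IsIntegralClosure.of_isIntegrallyClosed BL L[X] F
  have : IsIntegralClosure Bk k[X] Fk := IsIntegralClosure.of_isIntegrallyClosed Bk k[X] Fk
  set S : RedExt (RatFunc L) F (RatFunc k) Fk :=
    RedExt.ofGaussDatum D.toGaussDatum hbase hdeg with hS
  have hlift' : ∀ b : Bk, ∃ β : S.O, IsIntegral L[X] ((β : S.O) : F) ∧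
      S.red β = algebraMap Bk Fk (algebraMap k[X] Bk t * b) := by
    intro b
    obtain ⟨β, hβO, hβint, hβred⟩ := hlift b
    refine ⟨⟨β, hβO⟩, hβint, ?_⟩
    rw [← hβred, D.redF_of_mem hβO]
    rfl
  obtain ⟨z, hz, h1, h2⟩ := exists_witness_of_lifts (BL := BL) (Bk := Bk) S c t ht hlift' hres
  have hzred : D.redF ((z : S.O) : F) = S.red z := by
    rw [D.redF_of_mem z.2]
    rfl
  refine mapDomain_le_of_conservation D d0 _ _ (z := ((z : S.O) : F)) (by rw [hzred]; exact hz)
    ?_ (by rw [hzred]; exact h2 Q0 hQ0)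
  intro P hP
  -- `P` is a finite place
  have hfin : RRgen.xF L F ∈ P.toValuationSubring := by
    by_contra hnot
    have hneg : P.ord (RRgen.xF L F) < 0 := by
      by_contra hge
      exact hnot (ProgramR.FF.mem_of_ord_nonneg P (not_lt.mp hge))
    have h3 := hpole P hneg
    rw [hP] at h3
    have h4 := ProgramR.FF.ord_nonneg_of_mem _ (RRgen.xF_mem_placeFin k Fk Bk Q0)
    omega
  have hmem : P ∈ Set.range (RRgen.placeFin L F BL) := by
    rw [RRgen.range_placeFin]
    exact hfin
  obtain ⟨P0, rfl⟩ := hmem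
  rw [hd0 P0]
  exact h1 P0

end datum

end Fermat.Agent.S18lib.Norm
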