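/-
S18lib / Norm / TraceIdeal  (helper8)

P2 of the normality package: the trace ideal of a finite separable extension `B / A` of
integrally closed domains (`B` Dedekind) controls the different:
if `Tr(B) ⊆ J` for a nonzero f.g. ideal `J` of `A` then `differentIdeal A B ≤ J B`.
Consequently, if a prime power `P ^ m` divides `J B` but not the different, then some element
of `B` has trace outside `J`.
Mathlib only.
-/
import Mathlib

set_option autoImplicit false

namespace Fermat.Agent.S18lib.Norm

open nonZeroDivisors

section AKLB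

variable (A K L B : Type*) [CommRing A] [Field K] [CommRing B] [Field L]
  [Algebra A K] [Algebra B L] [Algebra A B] [Algebra K L] [Algebra A L]
  [IsScalarTower A K L] [IsScalarTower A B L]
  [IsDomain A] [IsFractionRing A K] [FiniteDimensional K L] [Algebra.IsSeparable K L]
  [IsIntegralClosure B A L] [IsFractionRing B L] [IsIntegrallyClosed A] [IsDedekindDomain B]
  [Module.IsTorsionFree A B]

/-- If all traces of elements of `B` lie in the (nonzero, finitely generated) ideal `J` of `A`,
then the different is contained in `J B`. -/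
theorem differentIdeal_le_map_of_trace_mem (J : Ideal A) (hJ : J ≠ ⊥) (hJfg : J.FG)
    (h : ∀ b : B, ∃ a ∈ J, algebraMap A K a = Algebra.trace K L (algebraMap B L b)) :
    differentIdeal A B ≤ J.map (algebraMap A B) := by
  have hinj : Function.Injective (algebraMap A B) := FaithfulSMul.algebraMap_injective A B
  have hI : J.map (algebraMap A B) ≠ ⊥ := by
    rwa [ne_eq, Ideal.map_eq_bot_iff_of_injective hinj]
  rw [differentialIdeal_le_iff (K := K) (L := L) hI]
  rintro _ ⟨z, hz, rfl⟩
  rw [SetLike.mem_coe, Submodule.restrictScalars_mem, FractionalIdeal.mem_coe] at hz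
  simp only [LinearMap.coe_restrictScalars]
  -- `x := Tr z` stabilises the image of `J` in `K`
  set x : K := Algebra.trace K L z with hx
  have hstab : ∀ n ∈ (Submodule.map (Algebra.linearMap A K) J),
      x • n ∈ (Submodule.map (Algebra.linearMap A K) J) := by
    rintro _ ⟨a, ha, rfl⟩
    have haI : algebraMap B L (algebraMap A B a) ∈
        ((J.map (algebraMap A B) : Ideal B) : FractionalIdeal B⁰ L) := by
      rw [FractionalIdeal.mem_coeIdeal]
      exact ⟨algebraMap A B a, Ideal.mem_map_of_mem _ ha, rfl⟩
    have hmem := (FractionalIdeal.mem_inv_iff (by simpa using hI)).mp hz _ haI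
    rw [FractionalIdeal.mem_one_iff] at hmem
    obtain ⟨b, hb⟩ := hmem
    obtain ⟨a', ha', hab⟩ := h b
    refine ⟨a', ha', ?_⟩
    rw [Algebra.linearMap_apply, hab, hb, Algebra.linearMap_apply, smul_eq_mul, hx,
      ← IsScalarTower.algebraMap_apply A B L, IsScalarTower.algebraMap_apply A K L,
      mul_comm z, ← Algebra.smul_def, map_smul, smul_eq_mul, mul_comm]
  have hne : (Submodule.map (Algebra.linearMap A K) J) ≠ ⊥ := by
    intro hbot
    apply hJ
    rw [eq_bot_iff]
    intro a ha
    have : Algebra.linearMap A K a ∈ (Submodule.map (Algebra.linearMap A K) J) :=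
      Submodule.mem_map_of_mem ha
    rw [hbot, Submodule.mem_bot, Algebra.linearMap_apply, map_eq_zero_iff _
      (IsFractionRing.injective A K)] at this
    rw [this]; exact Submodule.zero_mem _
  have hfg : (Submodule.map (Algebra.linearMap A K) J).FG :=
    Submodule.FG.map _ hJfg
  have hint : IsIntegral A x :=
    isIntegral_of_smul_mem_submodule (R := A) (A := K) (M := K) _ hne hfg x hstab
  obtain ⟨a, ha⟩ := IsIntegrallyClosed.isIntegral_iff.mp hint
  rw [Submodule.one_eq_range]
  exact ⟨a, ha⟩

/-- **Trace ideal criterion.**  If `P ^ m ∣ J B` but `P ^ m ∤ differentIdeal A B`, then some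
element of `B` has trace outside `J`. -/
theorem exists_trace_not_mem (J : Ideal A) (hJ : J ≠ ⊥) (hJfg : J.FG) (P : Ideal B) (m : ℕ)
    (hP : P ^ m ∣ J.map (algebraMap A B)) (hD : ¬ P ^ m ∣ differentIdeal A B) :
    ∃ b : B, ∀ a ∈ J, algebraMap A K a ≠ Algebra.trace K L (algebraMap B L b) := by
  by_contra hcon
  push Not at hcon
  apply hD
  have hle := differentIdeal_le_map_of_trace_mem A K L B J hJ hJfg hcon
  exact hP.trans (Ideal.dvd_iff_le.mpr hle)

end AKLB

end Fermat.Agent.S18lib.Norm
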