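/-
S18lib / Norm / Normal  (helper8)

N1 of the normality package: normality of the reduced model at `X = c`, from the level above.

Tower on the `k`-side: `k[X] → Bk → Bk'` (Dedekind domains with fraction fields `Fk ⊆ Fk'`,
`Bk'` the integral closure of `Bk`); characteristic-0 side: `F ⊆ F'` with an `L[X]`-structure;
`S' : RedExt F F' Fk Fk'` the reduction (valuation ring `O'` of `F'`, `red' : O' → Fk'`).
`Lifts b̄` (for `b̄ ∈ Bk`) : `b̄` is the reduction of an element of `F ∩ O'` integral over `L[X]`.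

If every element of `Bk'` lifts to an element of `O'` integral over `L[X]` (equality case of the
weak genus inequality), and for every prime `Q ∋ X - c` of `Bk` some prime power `Q'' ^ m`
divides `Q² Bk'` but not the different of `Bk' / Bk`, then there is `t ∈ k[X]`, `t(c) ≠ 0`,
such that `t • b̄` lifts for every `b̄ ∈ Bk`.
-/
import Mathlib
import Fermat.Agent.S18lib.Norm.CharpolyRed
import Fermat.Agent.S18lib.Norm.TraceIdeal
import Fermat.Agent.S18lib.Norm.Sandwich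

set_option autoImplicit false

noncomputable section

namespace Fermat.Agent.S18lib.Norm

open Polynomial nonZeroDivisors

/-- the trace ideal of `Bk' / Bk` -/
def traceIdeal (Bk Fk Fk' Bk' : Type*) [CommRing Bk] [CommRing Bk'] [Field Fk] [Field Fk']
    [Algebra Fk Fk'] [Algebra Bk Fk] [Algebra Bk' Fk'] [Algebra Bk Bk'] [Algebra Bk Fk']
    [IsScalarTower Bk Fk Fk'] [IsScalarTower Bk Bk' Fk'] : Ideal Bk where
  carrier := {a | ∃ b' : Bk', algebraMap Bk Fk a = Algebra.trace Fk Fk' (algebraMap Bk' Fk' b')}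
  add_mem' := by
    rintro a₁ a₂ ⟨b₁, h₁⟩ ⟨b₂, h₂⟩
    exact ⟨b₁ + b₂, by rw [map_add, map_add, map_add, h₁, h₂]⟩
  zero_mem' := ⟨0, by simp⟩
  smul_mem' := by
    rintro c a ⟨b, hb⟩
    refine ⟨algebraMap Bk Bk' c * b, ?_⟩
    have e : algebraMap Bk' Fk' (algebraMap Bk Bk' c * b) =
        (algebraMap Bk Fk c) • algebraMap Bk' Fk' b := by
      rw [map_mul, ← IsScalarTower.algebraMap_apply Bk Bk' Fk',
        IsScalarTower.algebraMap_apply Bk Fk Fk', Algebra.smul_def]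
    rw [e, smul_eq_mul, map_mul, hb, map_smul, smul_eq_mul]

variable (L : Type*) {k : Type*} [Field L] [Field k]
variable {F F' Fk Fk' : Type*} [Field F] [Field F'] [Field Fk] [Field Fk']
  [Algebra F F'] [Algebra Fk Fk']
  [Algebra L[X] F] [Algebra L[X] F'] [IsScalarTower L[X] F F']
variable {Bk Bk' : Type*} [CommRing Bk] [CommRing Bk'] [IsDedekindDomain Bk]
  [IsDedekindDomain Bk']
  [Algebra k[X] Bk] [Algebra k Bk] [IsScalarTower k k[X] Bk]
  [Algebra Bk Fk] [IsFractionRing Bk Fk]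
  [Algebra Bk' Fk'] [IsFractionRing Bk' Fk']
  [Algebra Bk Bk'] [Algebra Bk Fk'] [IsScalarTower Bk Fk Fk'] [IsScalarTower Bk Bk' Fk']
  [IsIntegralClosure Bk' Bk Fk'] [Module.IsTorsionFree Bk Bk']
  [FiniteDimensional Fk Fk'] [Algebra.IsSeparable Fk Fk']
  [FiniteDimensional F F']

/-- `b̄ ∈ Bk` is the reduction of an element of `F`, integral over `L[X]` and lying in `O'`. -/
def Lifts (S' : RedExt F F' Fk Fk') (bbar : Bk) : Prop :=
  ∃ b : F, IsIntegral L[X] b ∧ ∃ h : algebraMap F F' b ∈ S'.O,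
    S'.red ⟨algebraMap F F' b, h⟩ = algebraMap Fk Fk' (algebraMap Bk Fk bbar)

variable {L}

omit [IsDedekindDomain Bk] [IsDedekindDomain Bk'] [Algebra k[X] Bk] [Algebra k Bk]
  [IsScalarTower k k[X] Bk] [IsFractionRing Bk Fk] [Algebra Bk' Fk'] [IsFractionRing Bk' Fk']
  [Algebra Bk Bk'] [Algebra Bk Fk'] [IsScalarTower Bk Fk Fk'] [IsScalarTower Bk Bk' Fk']
  [IsIntegralClosure Bk' Bk Fk'] [Module.IsTorsionFree Bk Bk'] [FiniteDimensional Fk Fk']
  [Algebra.IsSeparable Fk Fk'] [FiniteDimensional F F'] [IsScalarTower L[X] F F']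
  [Algebra L[X] F'] in
theorem Lifts.add {S' : RedExt F F' Fk Fk'} {x y : Bk} (hx : Lifts L S' x) (hy : Lifts L S' y) :
    Lifts L S' (x + y) := by
  obtain ⟨a, ha, ha', hra⟩ := hx
  obtain ⟨b, hb, hb', hrb⟩ := hy
  refine ⟨a + b, ha.add hb, by rw [map_add]; exact S'.O.add_mem _ _ ha' hb', ?_⟩
  have : (⟨algebraMap F F' (a + b), by rw [map_add]; exact S'.O.add_mem _ _ ha' hb'⟩ : S'.O) =
      ⟨algebraMap F F' a, ha'⟩ + ⟨algebraMap F F' b, hb'⟩ := by
    apply Subtype.ext; simp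
  rw [this, map_add, hra, hrb, map_add, map_add]

omit [IsDedekindDomain Bk] [IsDedekindDomain Bk'] [Algebra k[X] Bk] [Algebra k Bk]
  [IsScalarTower k k[X] Bk] [IsFractionRing Bk Fk] [Algebra Bk' Fk'] [IsFractionRing Bk' Fk']
  [Algebra Bk Bk'] [Algebra Bk Fk'] [IsScalarTower Bk Fk Fk'] [IsScalarTower Bk Bk' Fk']
  [IsIntegralClosure Bk' Bk Fk'] [Module.IsTorsionFree Bk Bk'] [FiniteDimensional Fk Fk']
  [Algebra.IsSeparable Fk Fk'] [FiniteDimensional F F'] [IsScalarTower L[X] F F']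
  [Algebra L[X] F'] in
theorem Lifts.mul {S' : RedExt F F' Fk Fk'} {x y : Bk} (hx : Lifts L S' x) (hy : Lifts L S' y) :
    Lifts L S' (x * y) := by
  obtain ⟨a, ha, ha', hra⟩ := hx
  obtain ⟨b, hb, hb', hrb⟩ := hy
  refine ⟨a * b, ha.mul hb, by rw [map_mul]; exact S'.O.mul_mem _ _ ha' hb', ?_⟩
  have : (⟨algebraMap F F' (a * b), by rw [map_mul]; exact S'.O.mul_mem _ _ ha' hb'⟩ : S'.O) =
      ⟨algebraMap F F' a, ha'⟩ * ⟨algebraMap F F' b, hb'⟩ := by
    apply Subtype.ext; simp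
  rw [this, map_mul, hra, hrb, map_mul, map_mul]

/-- the subalgebra of liftable elements -/
def liftSubalgebra (S' : RedExt F F' Fk Fk')
    (hpoly : ∀ p : k[X], Lifts L S' (algebraMap k[X] Bk p)) : Subalgebra k[X] Bk where
  carrier := {x | Lifts L S' x}
  mul_mem' := Lifts.mul
  add_mem' := Lifts.add
  algebraMap_mem' := hpoly

/-- **Normality at `X = c` from the level above.** -/
theorem exists_smul_lifts (S' : RedExt F F' Fk Fk') (c : k)
    (hinj : Function.Injective (algebraMap k[X] Bk)) [Algebra.IsIntegral k[X] Bk]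
    (hpoly : ∀ p : k[X], Lifts L S' (algebraMap k[X] Bk p))
    (hS2 : ∀ b' : Bk', ∃ β : S'.O, IsIntegral L[X] ((β : S'.O) : F') ∧
      S'.red β = algebraMap Bk' Fk' b')
    (hTable : ∀ Q : Ideal Bk, Q.IsPrime → algebraMap k[X] Bk (X - C c) ∈ Q →
      ∃ (Q'' : Ideal Bk') (m : ℕ), Q'' ^ m ∣ (Q ^ 2).map (algebraMap Bk Bk') ∧
        ¬ Q'' ^ m ∣ differentIdeal Bk Bk')
    (hres : ∀ Q : Ideal Bk, Q.IsMaximal → Function.Surjective (algebraMap k (Bk ⧸ Q))) :
    ∃ t : k[X], t.eval c ≠ 0 ∧ ∀ b : Bk, Lifts L S' (algebraMap k[X] Bk t * b) := by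
  have hinjBF : Function.Injective (algebraMap Bk Fk) := IsFractionRing.injective Bk Fk
  -- traces of elements of `Bk'` lie in `Bk`
  have htr : ∀ b' : Bk', ∃ a : Bk,
      algebraMap Bk Fk a = Algebra.trace Fk Fk' (algebraMap Bk' Fk' b') := by
    intro b'
    have h1 : IsIntegral Bk (algebraMap Bk' Fk' b') :=
      IsIntegralClosure.isIntegral_iff (A := Bk').mpr ⟨b', rfl⟩
    have h2 : IsIntegral Bk (Algebra.trace Fk Fk' (algebraMap Bk' Fk' b')) :=
      Algebra.isIntegral_trace h1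
    exact IsIntegrallyClosed.isIntegral_iff.mp h2
  set I : Ideal Bk := traceIdeal Bk Fk Fk' Bk' with hI
  -- `I ≠ ⊥`
  have hI0 : I ≠ ⊥ := by
    obtain ⟨f, hf⟩ := Algebra.trace_surjective Fk Fk' (1 : Fk)
    have halg : IsIntegral Fk f := IsIntegral.of_finite Fk f
    obtain ⟨m, hm⟩ := IsIntegral.exists_multiple_integral_of_isLocalization (R := Bk) Bk⁰ f halg
    obtain ⟨b', hb'⟩ := IsIntegralClosure.isIntegral_iff (A := Bk').mp hm
    intro hbot
    have hmem : (m : Bk) ∈ I := by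
      refine ⟨b', ?_⟩
      rw [hb', Submonoid.smul_def, Algebra.smul_def, IsScalarTower.algebraMap_apply Bk Fk Fk',
        ← Algebra.smul_def, map_smul, hf, smul_eq_mul, mul_one]
    rw [hbot, Ideal.mem_bot] at hmem
    exact nonZeroDivisors.coe_ne_zero m hmem
  -- `I ⊆ Bt`
  have hIB : ∀ x ∈ I, x ∈ liftSubalgebra S' hpoly := by
    rintro a ⟨b', hb'⟩
    obtain ⟨β, hβint, hβred⟩ := hS2 b'
    obtain ⟨hmem, hred⟩ := S'.exists_trace_mem β
    refine ⟨Algebra.trace F F' (β : F'), Algebra.isIntegral_trace hβint, hmem, ?_⟩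
    have := S'.red_algebraMap ⟨Algebra.trace F F' (β : F'), hmem⟩
    rw [hred, hβred, ← hb'] at this
    exact this
  -- powers
  have hpow : ∀ b : Bk, ∃ p : ℕ, 0 < p ∧ b ^ p ∈ liftSubalgebra S' hpoly := by
    intro b
    obtain ⟨β, hβint, hβred⟩ := hS2 (algebraMap Bk Bk' b)
    obtain ⟨hmem, hred⟩ := S'.exists_norm_mem β
    refine ⟨Module.finrank Fk Fk', Module.finrank_pos, Algebra.norm F (β : F'),
      Algebra.isIntegral_norm F hβint, hmem, ?_⟩
    have := S'.red_algebraMap ⟨Algebra.norm F (β : F'), hmem⟩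
    rw [hred, hβred, ← IsScalarTower.algebraMap_apply Bk Bk' Fk',
      IsScalarTower.algebraMap_apply Bk Fk Fk', Algebra.norm_algebraMap] at this
    rw [this]
    simp only [map_pow]
  -- `I ⊄ Q²`
  have hIQ : ∀ Q : Ideal Bk, Q.IsPrime → algebraMap k[X] Bk (X - C c) ∈ Q → ¬ I ≤ Q ^ 2 := by
    intro Q hQ hπ hle
    obtain ⟨Q'', m, hdvd, hnd⟩ := hTable Q hQ hπ
    have hQ0 : Q ≠ ⊥ := by
      intro h
      rw [h, Ideal.mem_bot, map_eq_zero_iff _ hinj] at hπ
      exact X_sub_C_ne_zero c hπ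
    have hJ0 : Q ^ 2 ≠ ⊥ := pow_ne_zero 2 hQ0
    apply hnd
    have hle' := differentIdeal_le_map_of_trace_mem Bk Fk Fk' Bk' (Q ^ 2) hJ0
      (IsNoetherian.noetherian _) (fun b' => by
        obtain ⟨a, ha⟩ := htr b'
        exact ⟨a, hle ⟨b', ha⟩, ha⟩)
    exact hdvd.trans (Ideal.dvd_iff_le.mpr hle')
  exact exists_smul_mem_of_sandwich c (liftSubalgebra S' hpoly) I hinj hI0 hIB hIQ hpow hres

end Fermat.Agent.S18lib.Norm
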