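/-
S18lib / Norm / Tower  (helper8)

The composed entry point of the normality package for the wild branches `ℓ = 2, 3`.

Level `N` : a full reduction datum `D : RedDatum A F Fk` (with place map `r`).
Level `N'`: a weak datum `G' : GaussDatum A F' Fk'` on an extension `F ⊆ F'`, `Fk ⊆ Fk'`,
compatible with `D` (`O = O' ∩ F`, `red' ∘ incl = incl ∘ red`), of the same degree on both sides.
Inputs at `x̄ = c`:
* `hS2`   : every element of `Bk'` is the reduction of an element of `O'` integral over `L[X]`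
            (equality case of the weak genus inequality at level `N'`);
* `hTable`: for each prime `Q ∋ X - c` of `Bk` some `Q''^m` divides `Q² Bk'` but not the
            different of `Bk'/Bk`  (two-tower different bound);
* `hres`  : residue fields of `Bk` are `k`.
Output: the local inequality `∑_{P ↦ Q} d_P ≤ d_Q` at every finite place `Q` over `x̄ = c`.
-/
import Mathlib
import Fermat.Agent.S18lib.Norm.Main
import Fermat.Agent.S18lib.Norm.Normal
import Fermat.Agent.S18lib.Norm.Base

set_option autoImplicit false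

noncomputable section

namespace Fermat.Agent.S18lib.Norm

open Polynomial IsDedekindDomain UniqueFactorizationMonoid AlgebraicCurve

variable {L : Type*} [Field L] {A : ValuationSubring L} [Infinite (IsLocalRing.ResidueField A)]

variable {F : Type*} [Field F] [Algebra L F] {Fk : Type*} [Field Fk]
  [Algebra (IsLocalRing.ResidueField A) Fk]
  [Algebra (RatFunc L) F] [IsScalarTower L (RatFunc L) F] [Algebra L[X] F]
  [IsScalarTower L[X] (RatFunc L) F]
  [FiniteDimensional (RatFunc L) F] [Algebra.IsSeparable (RatFunc L) F]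
  [Algebra (RatFunc (IsLocalRing.ResidueField A)) Fk]
  [IsScalarTower (IsLocalRing.ResidueField A) (RatFunc (IsLocalRing.ResidueField A)) Fk]
  [Algebra (IsLocalRing.ResidueField A)[X] Fk]
  [IsScalarTower (IsLocalRing.ResidueField A)[X] (RatFunc (IsLocalRing.ResidueField A)) Fk]
  [FiniteDimensional (RatFunc (IsLocalRing.ResidueField A)) Fk]
  [Algebra.IsSeparable (RatFunc (IsLocalRing.ResidueField A)) Fk]
  (BL : Type*) [CommRing BL] [IsDedekindDomain BL] [Algebra L[X] BL] [Module.Finite L[X] BL]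
  [Algebra BL F] [IsScalarTower L[X] BL F] [IsFractionRing BL F]
  [Module.IsTorsionFree L[X] BL] [Algebra L BL] [IsScalarTower L BL F]
  (Bk : Type*) [CommRing Bk] [IsDedekindDomain Bk] [Algebra (IsLocalRing.ResidueField A)[X] Bk]
  [Module.Finite (IsLocalRing.ResidueField A)[X] Bk]
  [Algebra Bk Fk] [IsScalarTower (IsLocalRing.ResidueField A)[X] Bk Fk] [IsFractionRing Bk Fk]
  [Module.IsTorsionFree (IsLocalRing.ResidueField A)[X] Bk]
  [Algebra (IsLocalRing.ResidueField A) Bk] [IsScalarTower (IsLocalRing.ResidueField A) Bk Fk]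
  [IsScalarTower (IsLocalRing.ResidueField A) (IsLocalRing.ResidueField A)[X] Bk]
  [HasPrincipalDivisors L F] [HasPrincipalDivisors (IsLocalRing.ResidueField A) Fk]
  -- the level above
  {F' : Type*} [Field F'] [Algebra L F'] {Fk' : Type*} [Field Fk']
  [Algebra (IsLocalRing.ResidueField A) Fk']
  [Algebra F F'] [Algebra Fk Fk'] [Algebra L[X] F'] [IsScalarTower L[X] F F']
  [FiniteDimensional F F'] [FiniteDimensional Fk Fk'] [Algebra.IsSeparable Fk Fk']
  (Bk' : Type*) [CommRing Bk'] [IsDedekindDomain Bk'] [Algebra Bk' Fk'] [IsFractionRing Bk' Fk']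
  [Algebra Bk Bk'] [Algebra Bk Fk'] [IsScalarTower Bk Fk Fk'] [IsScalarTower Bk Bk' Fk']
  [IsIntegralClosure Bk' Bk Fk'] [Module.IsTorsionFree Bk Bk']

local notation "k" => IsLocalRing.ResidueField A

/-- **The local inequality `∑_{P ↦ Q} d_P ≤ d_Q` over `x̄ = c`, from the level above.** -/
theorem mapDomain_le_count_of_tower (D : RedDatum A F Fk) (G' : GaussDatum A F' Fk')
    (hO : ∀ x : F, algebraMap F F' x ∈ G'.O ↔ x ∈ D.O)
    (hred : ∀ x : F, x ∈ D.O → G'.redF (algebraMap F F' x) = algebraMap Fk Fk' (D.redF x))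
    (hdeg' : Module.finrank F F' = Module.finrank Fk Fk')
    (hbase : ∀ q : RatFunc L, algebraMap (RatFunc L) F q ∈ D.O →
      ∃ qb : RatFunc k, D.redF (algebraMap (RatFunc L) F q) = algebraMap (RatFunc k) Fk qb)
    (hdeg : Module.finrank (RatFunc L) F = Module.finrank (RatFunc k) Fk)
    (hpole : ∀ P : Place L F, P.ord (RRgen.xF L F) < 0 → (D.r P).ord (RRgen.xF k Fk) < 0)
    (hx : D.redF (RRgen.xF L F) = RRgen.xF k Fk)
    (c : k)
    (hS2 : ∀ b' : Bk', ∃ β : F', β ∈ G'.O ∧ IsIntegral L[X] β ∧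
      G'.redF β = algebraMap Bk' Fk' b')
    (hTable : ∀ Q : Ideal Bk, Q.IsPrime → algebraMap k[X] Bk (X - C c) ∈ Q →
      ∃ (Q'' : Ideal Bk') (m : ℕ), Q'' ^ m ∣ (Q ^ 2).map (algebraMap Bk Bk') ∧
        ¬ Q'' ^ m ∣ differentIdeal Bk Bk')
    (hres : ∀ Q : Ideal Bk, Q.IsMaximal → Function.Surjective (algebraMap k (Bk ⧸ Q)))
    (d0 : Place L F →₀ ℕ)
    (hd0 : ∀ P0 : HeightOneSpectrum BL, d0 (RRgen.placeFin L F BL P0) =
      (normalizedFactors (differentIdeal L[X] BL)).count P0.asIdeal)
    (Q0 : HeightOneSpectrum Bk) (hQ0 : algebraMap k[X] Bk (X - C c) ∈ Q0.asIdeal) :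
    Finsupp.mapDomain D.r d0 (RRgen.placeFin k Fk Bk Q0) ≤
      (normalizedFactors (differentIdeal k[X] Bk)).count Q0.asIdeal := by
  -- the `RedExt` of the level above
  have hbase' : ∀ q : F, algebraMap F F' q ∈ G'.O →
      ∃ qb : Fk, G'.redF (algebraMap F F' q) = algebraMap Fk Fk' qb :=
    fun q hq => ⟨D.redF q, hred q ((hO q).1 hq)⟩
  set S' : RedExt F F' Fk Fk' := RedExt.ofGaussDatum G' hbase' hdeg' with hS'
  have hinjF : Function.Injective (algebraMap k[X] Fk) := by
    rw [IsScalarTower.algebraMap_eq k[X] (RatFunc k) Fk]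
    exact (algebraMap (RatFunc k) Fk).injective.comp (IsFractionRing.injective k[X] (RatFunc k))
  have hinj : Function.Injective (algebraMap k[X] Bk) := by
    intro a b hab
    apply hinjF
    rw [IsScalarTower.algebraMap_apply k[X] Bk Fk, hab, ← IsScalarTower.algebraMap_apply k[X] Bk Fk]
  have hint : Algebra.IsIntegral k[X] Bk := inferInstance
  -- polynomials lift
  have hpoly : ∀ p : k[X], Lifts L S' (algebraMap k[X] Bk p) := by
    intro p
    obtain ⟨P, hPO, hPred⟩ := exists_lifts_poly D.toGaussDatum hx p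
    have e1 : algebraMap L[X] F P = aeval (RRgen.xF L F) P := by
      rw [IsScalarTower.algebraMap_apply L[X] (RatFunc L) F, algebraMap_ratFunc_poly]
    have e2 : algebraMap k[X] Fk p = aeval (RRgen.xF k Fk) p := by
      rw [IsScalarTower.algebraMap_apply k[X] (RatFunc k) Fk]
      exact algebraMap_ratFunc_poly (L := k) (F := Fk) p
    refine ⟨algebraMap L[X] F P, isIntegral_algebraMap, ?_, ?_⟩
    · rw [e1]; exact (hO _).2 hPO
    · have h1 : S'.red ⟨algebraMap F F' (algebraMap L[X] F P), by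
          rw [e1]; exact (hO _).2 hPO⟩ = G'.redF (algebraMap F F' (algebraMap L[X] F P)) := by
        rw [G'.redF_of_mem]
        rfl
      rw [h1, e1, hred _ hPO]
      congr 1
      rw [← IsScalarTower.algebraMap_apply k[X] Bk Fk, e2]
      exact hPred
  -- the equality case upstairs
  have hS2' : ∀ b' : Bk', ∃ β : S'.O, IsIntegral L[X] ((β : S'.O) : F') ∧
      S'.red β = algebraMap Bk' Fk' b' := by
    intro b'
    obtain ⟨β, hβO, hβint, hβred⟩ := hS2 b'
    refine ⟨⟨β, hβO⟩, hβint, ?_⟩
    rw [← hβred, G'.redF_of_mem hβO]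
    rfl
  obtain ⟨t, ht, hl⟩ := exists_smul_lifts (L := L) S' c hinj hpoly hS2' hTable hres
  -- back to level `N`
  have hlift : ∀ b : Bk, ∃ β : F, β ∈ D.O ∧ IsIntegral L[X] β ∧
      D.redF β = algebraMap Bk Fk (algebraMap k[X] Bk t * b) := by
    intro b
    obtain ⟨β, hβint, hβmem, hβred⟩ := hl b
    have hβO : β ∈ D.O := (hO β).1 hβmem
    refine ⟨β, hβO, hβint, ?_⟩
    apply (algebraMap Fk Fk').injective
    rw [← hβred, ← hred β hβO, G'.redF_of_mem hβmem]
    rfl
  exact mapDomain_le_count BL Bk D hbase hdeg hpole c t ht hlift hres d0 hd0 Q0 hQ0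

end Fermat.Agent.S18lib.Norm
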