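/-
S18lib / Norm / Sandwich  (helper8)

P3 of the normality package.  `B` a Dedekind domain, integral over `k[X]`, all residue fields
equal to `k`; `Bt ⊆ B` a `k[X]`-subalgebra (the reduction of the integral model) such that
* `Bt` contains a nonzero ideal `I` of `B` with `I ⊄ Q ^ 2` for every prime `Q ∋ X - c`,
* every `b ∈ B` has a positive power in `Bt`.
Then `Bt = B` locally at `X = c`:  there is `t ∈ k[X]` with `t(c) ≠ 0` and `t • B ⊆ Bt`.
Mathlib only.
-/
import Mathlib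

set_option autoImplicit false

namespace Fermat.Agent.S18lib.Norm

open Polynomial UniqueFactorizationMonoid

variable {k : Type*} [Field k] {B : Type*} [CommRing B] [IsDedekindDomain B]
  [Algebra k[X] B] [Algebra k B] [IsScalarTower k k[X] B]

/-- In a Dedekind domain, an ideal `I₁ ≠ ⊥` not contained in the square of any prime is radical:
`ρ ^ n ∈ I₁ → ρ ∈ I₁`. -/
theorem mem_of_pow_mem_of_not_le_sq {I₁ : Ideal B} (h0 : I₁ ≠ ⊥)
    (hsq : ∀ Q : Ideal B, Q.IsPrime → Q ≠ ⊥ → ¬ I₁ ≤ Q ^ 2) {ρ : B} {n : ℕ}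
    (hρ : ρ ^ n ∈ I₁) : ρ ∈ I₁ := by
  have hsf : Squarefree I₁ := by
    rw [squarefree_iff_irreducible_sq_not_dvd_of_ne_zero h0]
    intro Q hQ hdvd
    have hQp : Prime Q := hQ.prime
    have hQ0 : Q ≠ ⊥ := hQp.ne_zero
    have hQprime : Q.IsPrime := Ideal.isPrime_of_prime hQp
    apply hsq Q hQprime hQ0
    rw [pow_two]
    exact Ideal.le_of_dvd hdvd
  have hrad : IsRadical I₁ := hsf.isRadical
  have h1 : I₁ ∣ Ideal.span {ρ} ^ n := by
    rw [Ideal.span_singleton_pow, Ideal.dvd_iff_le, Ideal.span_singleton_le_iff_mem]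
    exact hρ
  have h2 := hrad n _ h1
  rw [Ideal.dvd_iff_le, Ideal.span_singleton_le_iff_mem] at h2
  exact h2

/-- **Sandwich lemma.** -/
theorem exists_smul_mem_of_sandwich (c : k) (Bt : Subalgebra k[X] B) (I : Ideal B)
    (hinj : Function.Injective (algebraMap k[X] B)) [Algebra.IsIntegral k[X] B]
    (hI0 : I ≠ ⊥) (hIB : ∀ x ∈ I, x ∈ Bt)
    (hIQ : ∀ Q : Ideal B, Q.IsPrime → algebraMap k[X] B (X - C c) ∈ Q → ¬ I ≤ Q ^ 2)
    (hpow : ∀ b : B, ∃ p : ℕ, 0 < p ∧ b ^ p ∈ Bt)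
    (hres : ∀ Q : Ideal B, Q.IsMaximal → Function.Surjective (algebraMap k (B ⧸ Q))) :
    ∃ t : k[X], t.eval c ≠ 0 ∧ ∀ b : B, algebraMap k[X] B t * b ∈ Bt := by
  classical
  set π : B := algebraMap k[X] B (X - C c) with hπ
  have hπ0 : π ≠ 0 := by
    rw [hπ, ne_eq, map_eq_zero_iff _ hinj]
    exact X_sub_C_ne_zero c
  -- Step 1: a nonzero element of `I ∩ k[X]`
  obtain ⟨y, hyI, hy0⟩ := Submodule.exists_mem_ne_zero_of_ne_bot hI0
  have hcomap : I.comap (algebraMap k[X] B) ≠ ⊥ :=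
    Ideal.comap_ne_bot_of_integral_mem hy0 hyI (Algebra.IsIntegral.isIntegral y)
  obtain ⟨x, hxI, hx0⟩ := Submodule.exists_mem_ne_zero_of_ne_bot hcomap
  rw [Ideal.mem_comap] at hxI
  -- Step 2: split off the power of `X - c`
  obtain ⟨t, hxt, htdvd⟩ := exists_eq_pow_rootMultiplicity_mul_and_not_dvd x hx0 c
  set a := rootMultiplicity c x with ha
  have htc : t.eval c ≠ 0 := by
    intro h0
    exact htdvd (dvd_iff_isRoot.mpr h0)
  refine ⟨t, htc, ?_⟩
  set t' : B := algebraMap k[X] B t with ht'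
  have hx' : π ^ a * t' ∈ I := by
    rw [hπ, ht', ← map_pow, ← map_mul, ← hxt]; exact hxI
  -- Step 3: `t' * ρ ∈ I` for `ρ` in the radical of `(π)`
  set I₁ : Ideal B := I ⊔ Ideal.span {π ^ a} with hI₁
  have hI₁0 : I₁ ≠ ⊥ := by
    intro h
    apply hI0
    rw [eq_bot_iff, ← h]
    exact le_sup_left
  have hI₁sq : ∀ Q : Ideal B, Q.IsPrime → Q ≠ ⊥ → ¬ I₁ ≤ Q ^ 2 := by
    intro Q hQ _ hle
    have hπa : π ^ a ∈ Q := by
      have : π ^ a ∈ Q ^ 2 := hle (Ideal.mem_sup_right (Ideal.mem_span_singleton_self _))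
      exact Ideal.pow_le_self two_ne_zero this
    have hπQ : π ∈ Q := hQ.mem_of_pow_mem a hπa
    exact hIQ Q hQ hπQ (le_sup_left.trans hle)
  have hstep3 : ∀ ρ : B, ρ ∈ (Ideal.span {π}).radical → t' * ρ ∈ I := by
    intro ρ hρ
    obtain ⟨M, hM⟩ := hρ
    have h1 : ρ ^ (M * a) ∈ I₁ := by
      rw [pow_mul]
      apply Ideal.mem_sup_right
      rw [Ideal.mem_span_singleton] at hM ⊢
      exact pow_dvd_pow_of_dvd hM a
    have h2 : ρ ∈ I₁ := mem_of_pow_mem_of_not_le_sq hI₁0 hI₁sq h1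
    rw [hI₁, Submodule.mem_sup] at h2
    obtain ⟨i, hi, w, hw, rfl⟩ := h2
    rw [Ideal.mem_span_singleton] at hw
    obtain ⟨w', rfl⟩ := hw
    rw [mul_add]
    refine I.add_mem (I.mul_mem_left _ hi) ?_
    have : t' * (π ^ a * w') = w' * (π ^ a * t') := by ring
    rw [this]
    exact I.mul_mem_left _ hx'
  -- Step 4: the sandwich
  intro b
  have hspan0 : (Ideal.span {π} : Ideal B) ≠ ⊥ := by
    rwa [ne_eq, Ideal.span_singleton_eq_bot]
  set S : Finset (Ideal B) := (normalizedFactors (Ideal.span {π} : Ideal B)).toFinset with hS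
  have hSmem : ∀ Q : Ideal B, Q ∈ S ↔ Q.IsPrime ∧ Ideal.span {π} ≤ Q := by
    intro Q
    rw [hS, Multiset.mem_toFinset, Ideal.mem_normalizedFactors_iff hspan0]
  have hSprime : ∀ Q ∈ S, Prime Q := fun Q hQ =>
    prime_of_normalized_factor Q (Multiset.mem_toFinset.mp hQ)
  have hSmax : ∀ Q ∈ S, Q.IsMaximal := by
    intro Q hQ
    have hp := hSprime Q hQ
    exact (Ideal.isPrime_of_prime hp).isMaximal hp.ne_zero
  -- residues of `b`
  have hc : ∀ Q : S, ∃ cQ : k, algebraMap k (B ⧸ (Q : Ideal B)) cQ = Ideal.Quotient.mk _ b :=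
    fun Q => hres Q (hSmax Q Q.2) _
  choose cb hcb using hc
  -- CRT idempotents
  have hε : ∀ Q : S, ∃ ε : B, ∀ (Q' : Ideal B) (hQ' : Q' ∈ S),
      ε - (if Q' = (Q : Ideal B) then 1 else 0) ∈ Q' ^ 1 := by
    intro Q
    exact IsDedekindDomain.exists_forall_sub_mem_ideal (s := S) (fun Q' => Q') (fun _ => 1)
      hSprime (fun i _ j _ hij => hij) (fun Q' => if (Q' : Ideal B) = (Q : Ideal B) then 1 else 0)
  choose ε hε using hε
  have hp : ∀ Q : S, ∃ p : ℕ, 0 < p ∧ ε Q ^ p ∈ Bt := fun Q => hpow (ε Q)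
  choose p hp0 hpB using hp
  set σ : B := ∑ Q : S, algebraMap k B (cb Q) * ε Q ^ p Q with hσ
  have hσB : σ ∈ Bt := by
    refine Subalgebra.sum_mem _ fun Q _ => Subalgebra.mul_mem _ ?_ (hpB Q)
    rw [IsScalarTower.algebraMap_apply k k[X] B]
    exact Subalgebra.algebraMap_mem _ _
  have hρ : b - σ ∈ (Ideal.span {π}).radical := by
    rw [Ideal.radical_eq_sInf, Ideal.mem_sInf]
    rintro Q' ⟨hle, hQ'⟩
    have hQ'S : Q' ∈ S := (hSmem Q').mpr ⟨hQ', hle⟩
    rw [← Ideal.Quotient.eq_zero_iff_mem, map_sub, hσ, map_sum, sub_eq_zero]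
    rw [Finset.sum_eq_single (⟨Q', hQ'S⟩ : S)]
    · have h1 : Ideal.Quotient.mk Q' (ε ⟨Q', hQ'S⟩) = 1 := by
        have := hε ⟨Q', hQ'S⟩ Q' hQ'S
        rw [if_pos rfl, pow_one, ← Ideal.Quotient.eq_zero_iff_mem, map_sub, map_one,
          sub_eq_zero] at this
        exact this
      rw [map_mul, map_pow, h1, one_pow, mul_one]
      have := hcb ⟨Q', hQ'S⟩
      rw [← this]
      rfl
    · intro Q _ hne
      have h0 : Ideal.Quotient.mk Q' (ε Q) = 0 := by
        have := hε Q Q' hQ'S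
        rw [if_neg (fun h => hne (Subtype.ext h.symm)), pow_one, sub_zero,
          ← Ideal.Quotient.eq_zero_iff_mem] at this
        exact this
      rw [map_mul, map_pow, h0, zero_pow (hp0 Q).ne', mul_zero]
    · intro h; exact absurd (Finset.mem_univ _) h
  have hfinal : t' * b = t' * (b - σ) + t' * σ := by ring
  rw [hfinal]
  exact Subalgebra.add_mem _ (hIB _ (hstep3 _ hρ))
    (Subalgebra.mul_mem _ (Subalgebra.algebraMap_mem _ _) hσB)

end Fermat.Agent.S18lib.Norm
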